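import Fermat.Agent.LT.T7.H616.ClassModelSpec

/-!
# Row LT, tower T7, node T7.L2.2.N.1 `ClassModelC` (deputy sub-architect helper616): THE TOP

OFF-MAIN.  PROVED: the eleven leaves of `ClassModelSpec.lean` give `SU736.ClassModelC K K'`.
No hole, nothing assumed.
-/

set_option autoImplicit false

open AutomorphicForm IsDedekindDomain NumberField MeasureTheory
open scoped ComplexConjugate

noncomputable section

namespace Fermat.Agent.LT.T7.CM616

open Fermat.Agent.LT.H556 Fermat.Agent.LT.H556.A0 Fermat.Agent.LT.T7 Fermat.Agent.LT.T7.SU736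

attribute [local instance] Fermat.Agent.LT.T5.instMeasurableSpaceG

/-! ## 1. Tools -/

section Tools

variable {K : Type} [Field K] [NumberField K]

theorem restr616_apply {M : Type} [AddCommGroup M] [Module ℂ M] (p : Submodule ℂ M)
    (f : M →ₗ[ℂ] M) (h : ∀ x ∈ p, f x ∈ p) (x : p) : ((restr616 p f x : p) : M) = f x := by
  unfold restr616
  rw [dif_pos h]
  rfl

theorem restr616_eq {M : Type} [AddCommGroup M] [Module ℂ M] (p : Submodule ℂ M)
    (f : M →ₗ[ℂ] M) (h : ∀ x ∈ p, f x ∈ p) : restr616 p f = f.restrict h := by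
  unfold restr616
  rw [dif_pos h]

theorem cosetLin616_apply (H : Finset (G K)) (ψ : G K → ℂ) : cosetLin616 H ψ = cosetOp H ψ :=
  rfl

theorem rsigLin616_apply (s : T5.AdelicAut K) (ψ : G K → ℂ) (x : G K) :
    rsigLin616 s ψ x = ψ (s.onGinv x) := rfl

theorem rsigInvLin616_apply (s : T5.AdelicAut K) (ψ : G K → ℂ) (x : G K) :
    rsigInvLin616 s ψ x = ψ (s.onG x) := rfl

theorem mem_classSp_of_map616 {𝔫 : Ideal (𝓞 K)} {r : G K} {l : ℕ}
    {o : ℕ → HeightOneSpectrum (𝓞 K)} {C : EigData K} (f : (G K → ℂ) →ₗ[ℂ] (G K → ℂ))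
    (hf : ∀ ψ, IsEigFn 𝔫 r l o ψ C → IsEigFn 𝔫 r l o (f ψ) C) :
    ∀ ψ ∈ classSp616 𝔫 r l o C, f ψ ∈ classSp616 𝔫 r l o C := by
  intro ψ hψ
  unfold classSp616 at hψ ⊢
  induction hψ using Submodule.span_induction with
  | mem x hx => exact Submodule.subset_span (hf x hx)
  | zero => rw [map_zero]; exact Submodule.zero_mem _
  | add x y _ _ hx hy => rw [map_add]; exact Submodule.add_mem _ hx hy
  | smul c x _ hx => rw [map_smul]; exact Submodule.smul_mem _ c hx

theorem levelInv_of_mem616 {𝔫 : Ideal (𝓞 K)} {r : G K} {l : ℕ}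
    {o : ℕ → HeightOneSpectrum (𝓞 K)} {C : EigData K} :
    ∀ ψ ∈ classSp616 𝔫 r l o C, IsLevelInv616 𝔫 ψ := by
  intro ψ hψ
  unfold classSp616 at hψ
  induction hψ using Submodule.span_induction with
  | mem x hx => exact fun u hu y => hx.inv.cusp.aut.level_inv u hu y
  | zero => exact fun _ _ _ => rfl
  | add x y _ _ hx hy =>
    intro u hu z
    rw [Pi.add_apply, Pi.add_apply, hx u hu z, hy u hu z]
  | smul c x _ hx =>
    intro u hu z
    rw [Pi.smul_apply, Pi.smul_apply, hx u hu z]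

theorem trivAtInf_one616 (w : InfinitePlace K) : TrivAtInf w (1 : G K) := by
  intro i j
  rw [Units.val_one, Matrix.one_apply, Matrix.one_apply]
  split_ifs <;> rfl

theorem trivAtFin_one616 (v : HeightOneSpectrum (𝓞 K)) : TrivAtFin v (1 : G K) := by
  unfold TrivAtFin finComp
  ext i j
  rw [Units.val_one, Matrix.one_apply, Matrix.one_apply]
  split_ifs <;> rfl

theorem inLevelGroup_one616 (𝔫 : Ideal (𝓞 K)) : InLevelGroup 𝔫 (1 : G K) := by
  have h0 : ∀ v : HeightOneSpectrum (𝓞 K), (0 : v.adicCompletion K) ∈ idealClosure 𝔫 v := by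
    intro v
    refine subset_closure ⟨0, 𝔫.zero_mem, ?_⟩
    simp
  refine ⟨fun w => trivAtInf_one616 w, fun v i j => ?_⟩
  have h1 : finComp v (1 : G K) = 1 := trivAtFin_one616 v
  rw [inv_one, h1, sub_self]
  exact ⟨h0 v, h0 v⟩

theorem isDblCosetSystem_one616 (𝔫 : Ideal (𝓞 K)) :
    IsDblCosetSystem 𝔫 (1 : G K) ({1} : Finset (G K)) := by
  refine ⟨fun h hh => ⟨1, 1, inLevelGroup_one616 𝔫, inLevelGroup_one616 𝔫, ?_⟩,
    fun h hh h' hh' hne => ?_, fun u hu => ⟨1, Finset.mem_singleton_self _, ?_⟩⟩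
  · rw [Finset.mem_singleton] at hh
    rw [hh, mul_one, mul_one]
  · rw [Finset.mem_singleton] at hh hh'
    exact absurd (hh.trans hh'.symm) hne
  · rw [inv_one, one_mul, mul_one]
    exact hu

theorem cosetOp_singleton_one616 (ψ : G K → ℂ) : cosetOp ({1} : Finset (G K)) ψ = ψ := by
  funext x
  unfold cosetOp
  rw [Finset.sum_singleton, mul_one]

/-- The conjugate of a sum of right translates by `R(σ)`. -/
theorem conj_cosetOp616 [DecidableEq (G K)] (s : T5.AdelicAut K)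
    (hl : ∀ g : G K, s.onGinv (s.onG g) = g)
    (hr : ∀ g : G K, s.onG (s.onGinv g) = g) (H : Finset (G K)) (ψ : G K → ℂ) :
    rsigInvLin616 s (cosetLin616 H (rsigLin616 s ψ))
      = cosetLin616 (H.image s.onGinv) ψ := by
  funext x
  rw [rsigInvLin616_apply, cosetLin616_apply, cosetLin616_apply]
  unfold cosetOp
  rw [Finset.sum_image]
  · refine Finset.sum_congr rfl fun h _ => ?_
    rw [rsigLin616_apply, map_mul, hl]
  · intro a _ b _ hab
    have := congrArg s.onG hab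
    rwa [hr, hr] at this

theorem iterate_rsig616 (s : T5.AdelicAut K) (n : ℕ) (ψ : G K → ℂ) (x : G K) :
    ((rsigLin616 s)^[n] ψ) x = ψ ((⇑s.onGinv)^[n] x) := by
  induction n generalizing x with
  | zero => rfl
  | succ n ih =>
    rw [Function.iterate_succ_apply', rsigLin616_apply, ih, ← Function.iterate_succ_apply]

/-- Sums of right translates by elementwise commuting sets commute. -/
theorem cosetOp_comm616 (H H' : Finset (G K)) (hc : ∀ a ∈ H, ∀ b ∈ H', a * b = b * a)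
    (ψ : G K → ℂ) (x : G K) : cosetOp H (cosetOp H' ψ) x = cosetOp H' (cosetOp H ψ) x := by
  unfold cosetOp
  rw [Finset.sum_comm]
  refine Finset.sum_congr rfl fun b hb => Finset.sum_congr rfl fun a ha => ?_
  rw [mul_assoc, hc a ha b hb, ← mul_assoc]

end Tools

/-! ## 2. The top -/

section Top

variable {K K' : Type} [Field K] [NumberField K] [Field K'] [NumberField K'] [Algebra K K']

omit [Algebra K K'] in
theorem isBad_one616 (Dt : L2Data K K') : Dt.IsBad (1 : G K') :=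
  ⟨fun w => trivAtInf_one616 w, fun v _ => trivAtFin_one616 v⟩

/-- **THE TOP OF THE NODE `ClassModelC`.** -/
theorem classModelC_of616 (h01 : FinDimC616 K K') (h02 : NontrivC616 K K')
    (h03 : StabGC616 K K') (h04 : StabSC616 K K') (h05 : CommGIC616 K K')
    (h06 : LocCommC616 K K') (h07 : LocMoveC616 K K') (h08 : PowC616 K K')
    (h09 : SimpleC616 K K') (h10 : MulGC616 K K') (h11 : DictC616 K K') :
    SU736.ClassModelC K K' := by
  classical
  intro ℓ hcyc hℓ hcplx Φ hΦ hconst Dt hDt hst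
  have ctx : Ctx616 K K' ℓ Φ Dt := ⟨hcyc, hℓ, hcplx, hΦ, hconst, hDt, hst⟩
  have hl : 0 < ℓ := hcyc.prime.pos
  -- stability of the class space
  have stS : ∀ ψ ∈ cls616 Dt ℓ Φ, rsigLin616 Dt.s ψ ∈ cls616 Dt ℓ Φ :=
    mem_classSp_of_map616 (rsigLin616 Dt.s) fun ψ hψ => (h04 ℓ Φ Dt ctx ψ hψ).1
  have stSi : ∀ ψ ∈ cls616 Dt ℓ Φ, rsigInvLin616 Dt.s ψ ∈ cls616 Dt ℓ Φ :=
    mem_classSp_of_map616 (rsigInvLin616 Dt.s) fun ψ hψ => (h04 ℓ Φ Dt ctx ψ hψ).2
  have stG : ∀ (g : G K') (Hg : Finset (G K')), Dt.IsBad g → IsDblCosetSystem Dt.𝔑₀ g Hg →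
      ∀ ψ ∈ cls616 Dt ℓ Φ, cosetLin616 Hg ψ ∈ cls616 Dt ℓ Φ := fun g Hg hg hHg =>
    mem_classSp_of_map616 (cosetLin616 Hg) fun ψ hψ => h03 ℓ Φ Dt ctx g Hg hg hHg ψ hψ
  have lev : ∀ ψ ∈ cls616 Dt ℓ Φ, IsLevelInv616 Dt.𝔑₀ ψ := levelInv_of_mem616
  have hleft : ∀ g : G K', Dt.s.onGinv (Dt.s.onG g) = g := hst.left_inverse
  have hright : ∀ g : G K', Dt.s.onG (Dt.s.onGinv g) = g := hst.right_inverse
  have hfd : FiniteDimensional ℂ (cls616 Dt ℓ Φ) := h01 ℓ Φ Dt ctx
  have hnt : Nontrivial (cls616 Dt ℓ Φ) := by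
    obtain ⟨ψ, hψ, x, hx⟩ := h02 ℓ Φ Dt ctx
    refine ⟨⟨⟨ψ, Submodule.subset_span hψ⟩, 0, fun h => hx ?_⟩⟩
    have h' : ψ = 0 := congrArg Subtype.val h
    rw [h']
    rfl
  -- the conjugation by `R(σ)`
  have hconj : ∀ (w w' : HeightOneSpectrum (𝓞 K')),
      (∀ h : G K', IsLocalAtFin w' h → IsLocalAtFin w (Dt.s.onGinv h)) →
      ∀ H : Finset (G K'), (∀ h ∈ H, IsLocalAtFin w' h) →
        (∀ ψ ∈ cls616 Dt ℓ Φ, cosetLin616 H ψ ∈ cls616 Dt ℓ Φ) →
        ∃ H' : Finset (G K'), (∀ h ∈ H', IsLocalAtFin w h) ∧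
          (∀ ψ ∈ cls616 Dt ℓ Φ, cosetLin616 H' ψ ∈ cls616 Dt ℓ Φ) ∧
          sInvOp616 Dt ℓ Φ * restr616 (cls616 Dt ℓ Φ) (cosetLin616 H) * sOp616 Dt ℓ Φ
            = restr616 (cls616 Dt ℓ Φ) (cosetLin616 H') := by
    intro w w' hmove H hH hstH
    have key := conj_cosetOp616 Dt.s hleft hright H
    have hst' : ∀ ψ ∈ cls616 Dt ℓ Φ,
        cosetLin616 (H.image Dt.s.onGinv) ψ ∈ cls616 Dt ℓ Φ := by
      intro ψ hψ
      rw [← key ψ]
      exact stSi _ (hstH _ (stS ψ hψ))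
    refine ⟨H.image Dt.s.onGinv, ?_, hst', ?_⟩
    · intro h hh
      obtain ⟨h₀, hh₀, rfl⟩ := Finset.mem_image.1 hh
      exact hmove h₀ (hH h₀ hh₀)
    · apply LinearMap.ext
      intro v
      apply Subtype.ext
      rw [Module.End.mul_apply, Module.End.mul_apply]
      unfold sInvOp616 sOp616
      rw [restr616_apply _ _ stSi, restr616_apply _ _ hstH, restr616_apply _ _ stS,
        restr616_apply _ _ hst', key]
  -- `S ^ n`
  have hpow : ∀ (n : ℕ) (v : cls616 Dt ℓ Φ),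
      (((sOp616 Dt ℓ Φ ^ n) v : cls616 Dt ℓ Φ) : G K' → ℂ)
        = (rsigLin616 Dt.s)^[n] (v : G K' → ℂ) := by
    intro n
    induction n with
    | zero => intro v; rfl
    | succ n ih =>
      intro v
      rw [pow_succ', Module.End.mul_apply, Function.iterate_succ_apply', ← ih v]
      unfold sOp616
      rw [restr616_apply _ _ stS]
  have hSl : sOp616 Dt ℓ Φ ^ ℓ = 1 := by
    apply LinearMap.ext
    intro v
    apply Subtype.ext
    rw [hpow ℓ v, Module.End.one_apply]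
    funext x
    rw [iterate_rsig616, h08 ℓ Φ Dt ctx x]
  refine ⟨cls616 Dt ℓ Φ, inferInstance, inferInstance, hfd, hnt, gSet616 Dt ℓ Φ,
    iSet616 Dt ℓ Φ, sOp616 Dt ℓ Φ, sInvOp616 Dt ℓ Φ, ?_⟩
  refine
    { hS := ?_
      hS' := ?_
      hGI := ?_
      hII := ?_
      hdown := ?_
      hwrap := ?_
      hcent := ?_
      hirr := ?_
      h1 := ?_
      hmul := ?_
      dict := ?_ }
  · -- hS
    apply LinearMap.ext
    intro v
    apply Subtype.ext
    rw [Module.End.mul_apply, Module.End.one_apply]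
    unfold sOp616 sInvOp616
    rw [restr616_apply _ _ stS, restr616_apply _ _ stSi]
    funext x
    rw [rsigLin616_apply, rsigInvLin616_apply, hright]
  · -- hS'
    apply LinearMap.ext
    intro v
    apply Subtype.ext
    rw [Module.End.mul_apply, Module.End.one_apply]
    unfold sOp616 sInvOp616
    rw [restr616_apply _ _ stSi, restr616_apply _ _ stS]
    funext x
    rw [rsigInvLin616_apply, rsigLin616_apply, hleft]
  · -- hGI
    rintro j hj _ ⟨g, Hg, hg, hHg, rfl⟩ _ ⟨H, hH, hstH, rfl⟩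
    apply LinearMap.ext
    intro v
    apply Subtype.ext
    rw [Module.End.mul_apply, Module.End.mul_apply, restr616_apply _ _ (stG g Hg hg hHg),
      restr616_apply _ _ hstH, restr616_apply _ _ hstH, restr616_apply _ _ (stG g Hg hg hHg)]
    funext x
    exact h05 ℓ Φ Dt ctx g Hg hg hHg j hj H hH v.1 (lev v.1 v.2) (lev _ (hstH v.1 v.2)) x
  · -- hII
    rintro i hi j hj hij _ ⟨H, hH, hstH, rfl⟩ _ ⟨H', hH', hstH', rfl⟩
    apply LinearMap.ext
    intro v
    apply Subtype.ext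
    rw [Module.End.mul_apply, Module.End.mul_apply, restr616_apply _ _ hstH,
      restr616_apply _ _ hstH', restr616_apply _ _ hstH', restr616_apply _ _ hstH]
    funext x
    exact cosetOp_comm616 H H'
      (fun a ha b hb => h06 ℓ Φ Dt ctx i hi j hj hij a b (hH a ha) (hH' b hb)) v.1 x
  · -- hdown
    rintro j hj _ ⟨H, hH, hstH, rfl⟩
    obtain ⟨H', hH', hstH', heq⟩ := hconj (Dt.o j) (Dt.o (j + 1))
      ((h07 ℓ Φ Dt ctx).1 j hj) H hH hstH
    rw [heq]
    exact Algebra.subset_adjoin ⟨H', hH', hstH', rfl⟩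
  · -- hwrap
    rintro _ ⟨H, hH, hstH, rfl⟩
    obtain ⟨H', hH', hstH', heq⟩ := hconj (Dt.o (ℓ - 1)) (Dt.o 0)
      ((h07 ℓ Φ Dt ctx).2) H hH hstH
    rw [heq]
    exact Algebra.subset_adjoin ⟨H', hH', hstH', rfl⟩
  · -- hcent
    intro h _
    rw [hSl, one_mul, mul_one]
  · -- hirr
    intro W hG hI
    have h := h09 ℓ Φ Dt ctx (W.map (cls616 Dt ℓ Φ).subtype)
      (Submodule.map_subtype_le _ W) ?_ ?_
    · rcases h with h | h
      · left
        rw [Submodule.eq_bot_iff]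
        intro w hw
        have : ((w : cls616 Dt ℓ Φ) : G K' → ℂ) ∈ W.map (cls616 Dt ℓ Φ).subtype :=
          ⟨w, hw, rfl⟩
        rw [h, Submodule.mem_bot] at this
        exact Subtype.ext this
      · right
        rw [Submodule.eq_top_iff']
        intro v
        have : ((v : cls616 Dt ℓ Φ) : G K' → ℂ) ∈ W.map (cls616 Dt ℓ Φ).subtype := by
          rw [h]
          exact v.2
        obtain ⟨w, hw, hwv⟩ := this
        have : w = v := Subtype.ext hwv
        rw [← this]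
        exact hw
    · rintro g Hg hg hHg ψ ⟨w, hw, rfl⟩
      have := hG (restr616 (cls616 Dt ℓ Φ) (cosetLin616 Hg)) ⟨g, Hg, hg, hHg, rfl⟩ hw
      exact ⟨_, this, restr616_apply _ _ (stG g Hg hg hHg) w⟩
    · rintro j hj H hH hstH ψ ⟨w, hw, rfl⟩
      have := hI j hj (restr616 (cls616 Dt ℓ Φ) (cosetLin616 H)) ⟨H, hH, hstH, rfl⟩ hw
      exact ⟨_, this, restr616_apply _ _ hstH w⟩
  · -- h1
    refine Submodule.subset_span ⟨1, {1}, isBad_one616 Dt, isDblCosetSystem_one616 _, ?_⟩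
    apply LinearMap.ext
    intro v
    apply Subtype.ext
    rw [restr616_apply _ _ (stG 1 {1} (isBad_one616 Dt) (isDblCosetSystem_one616 _)),
      Module.End.one_apply, cosetLin616_apply, cosetOp_singleton_one616]
  · -- hmul
    rintro _ ⟨g, Hg, hg, hHg, rfl⟩ _ ⟨g', Hg', hg', hHg', rfl⟩
    obtain ⟨n, c, g'', H'', hbad, hprod⟩ := h10 ℓ Φ Dt ctx g g' Hg Hg' hg hHg hg' hHg'
    have heq : restr616 (cls616 Dt ℓ Φ) (cosetLin616 Hg)
          * restr616 (cls616 Dt ℓ Φ) (cosetLin616 Hg')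
        = ∑ i, c i • restr616 (cls616 Dt ℓ Φ) (cosetLin616 (H'' i)) := by
      apply LinearMap.ext
      intro v
      apply Subtype.ext
      rw [Module.End.mul_apply, restr616_apply _ _ (stG g Hg hg hHg),
        restr616_apply _ _ (stG g' Hg' hg' hHg'), LinearMap.sum_apply, Submodule.coe_sum]
      funext x
      rw [Finset.sum_apply]
      rw [cosetLin616_apply, cosetLin616_apply, hprod v.1 (lev v.1 v.2) x]
      refine Finset.sum_congr rfl fun i _ => ?_
      rw [LinearMap.smul_apply, Submodule.coe_smul, Pi.smul_apply, smul_eq_mul,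
        restr616_apply _ _ (stG (g'' i) (H'' i) (hbad i).1 (hbad i).2), cosetLin616_apply]
    rw [heq]
    exact Submodule.sum_mem _ fun i _ => Submodule.smul_mem _ _
      (Submodule.subset_span ⟨g'' i, H'' i, (hbad i).1, (hbad i).2, rfl⟩)
  · -- dict
    rintro _ ⟨g, Hg, hg, hHg, rfl⟩
    exact ⟨g, Hg, hg, hHg, fun q J hq => h11 ℓ Φ Dt ctx g Hg hg hHg q J hq⟩

end Top

end Fermat.Agent.LT.T7.CM616

end
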