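import Fermat.Agent.LT.T7.H736.NonVan

/-!
# Row LT, tower T7, node T7.L2.2.N.1 `ClassModelC` (deputy sub-architect helper616): THE CUT, v0.1

OFF-MAIN.  Definitions, frozen Props, PROVED top.  No hole, nothing assumed.  ADDITIVE:
`T7/H736/NonVan.lean` (helper736, sha256 083ede40) is imported as it is.

    classModelC_of616 : FinDimC616 K K' → NontrivC616 K K' → StabGC616 K K' → StabSC616 K K'
        → CommGIC616 K K' → LocCommC616 K K' → LocMoveC616 K K' → PowC616 K K'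
        → SimpleC616 K K' → MulGC616 K K' → DictC616 K K' → SU736.ClassModelC K K'

## The model (CONCRETE, proof-free definitions)

* `cls616 Dt ℓ Φ`  = the span of the invariant eigenfunctions with data `eigOf Φ` at the base
  level (`IsEigFn 𝔑₀ r ℓ o ψ (eigOf Φ)`), a submodule of `G K' → ℂ`; `V = ↥(cls616 Dt ℓ Φ)`;
* `restr616 p f`   = the restriction of the linear map `f` to `p` when `f` preserves `p`
  (and `0` otherwise);
* `𝒢 = gSet616`    = the restrictions of `cosetLin616 Hg = [U g U]`, `g` bad,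
  `IsDblCosetSystem 𝔑₀ g Hg`;
* `ℐ j = iSet616 j` = the restrictions of ALL the sums of right translates `cosetLin616 H`,
  `H` a finite set of elements supported at `o j`, which preserve the class space (this contains
  the Iwahori--Hecke operators `[I x I]` at `o j`; a bigger set makes `hirr` WEAKER);
* `S = R(σ)`, `Sinv = R(σ)⁻¹` (`ψ ↦ ψ ∘ σ`) restricted to the class space.

## The leaves (all in elementary form: functions on `GL₂(𝔸_{K'})`, no operator algebra)

Context of every leaf: `Ctx616 K K' ℓ Φ Dt` = the hypotheses of `ClassModelC`.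

| leaf | name | statement |
|---|---|---|
| CM.01 | `FinDimC616`  | the class space is finite dimensional (T2: Hilbert--Schmidt bound) |
| CM.02 | `NontrivC616` | there is a non-zero eigenfunction with data `eigOf Φ` (the form of `Φ`) |
| CM.03 | `StabGC616`   | `[U g U]` (`g` bad) maps eigenfunctions to eigenfunctions |
| CM.04 | `StabSC616`   | `R(σ)` and `R(σ)⁻¹` map eigenfunctions to eigenfunctions |
| CM.05 | `CommGIC616`  | `[U g U]` commutes with the sums of translates supported at `o j` |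
| CM.06 | `LocCommC616` | elements supported at `o i`, `o j` (`i ≠ j < ℓ`) commute |
| CM.07 | `LocMoveC616` | `σ⁻¹` moves the elements supported at `o (j+1)` to `o j`, `o 0` to `o (ℓ-1)` |
| CM.08 | `PowC616`     | `σ⁻ℓ = 1` on `GL₂(𝔸_{K'})` |
| CM.09 | `SimpleC616`  | multiplicity one in module form (helper963) |
| CM.10 | `MulGC616`    | `[U g U][U g' U] = ∑ c_i [U g_i U]`, `g_i` bad |
| CM.11 | `DictC616`    | twisted trace in an orthonormal class basis = trace on the model |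
-/

set_option autoImplicit false

open AutomorphicForm IsDedekindDomain NumberField MeasureTheory
open scoped ComplexConjugate

noncomputable section

namespace Fermat.Agent.LT.T7.CM616

open Fermat.Agent.LT.H556 Fermat.Agent.LT.H556.A0 Fermat.Agent.LT.T7 Fermat.Agent.LT.T7.SU736

attribute [local instance] Fermat.Agent.LT.T5.instMeasurableSpaceG

/-! ## 1. Operators as linear maps -/

section Ops

variable {K : Type} [Field K] [NumberField K]

/-- `cosetOp H` as a linear map. -/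
def cosetLin616 (H : Finset (G K)) : (G K → ℂ) →ₗ[ℂ] (G K → ℂ) where
  toFun ψ := cosetOp H ψ
  map_add' ψ ψ' := by
    funext x
    simp only [cosetOp, Pi.add_apply, Finset.sum_add_distrib]
  map_smul' c ψ := by
    funext x
    simp only [cosetOp, Pi.smul_apply, smul_eq_mul, RingHom.id_apply, Finset.mul_sum]

/-- `R(σ)` (`T5.Rsig s`) as a linear map. -/
def rsigLin616 (s : T5.AdelicAut K) : (G K → ℂ) →ₗ[ℂ] (G K → ℂ) where
  toFun ψ := T5.Rsig s ψ
  map_add' _ _ := rfl
  map_smul' _ _ := rfl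

/-- `R(σ)⁻¹ : ψ ↦ ψ ∘ σ` as a linear map. -/
def rsigInvLin616 (s : T5.AdelicAut K) : (G K → ℂ) →ₗ[ℂ] (G K → ℂ) where
  toFun ψ := fun x => ψ (s.onG x)
  map_add' _ _ := rfl
  map_smul' _ _ := rfl

/-- The span of the invariant eigenfunctions with data `C`. -/
def classSp616 (𝔫 : Ideal (𝓞 K)) (r : G K) (l : ℕ) (o : ℕ → HeightOneSpectrum (𝓞 K))
    (C : EigData K) : Submodule ℂ (G K → ℂ) :=
  Submodule.span ℂ {ψ | IsEigFn 𝔫 r l o ψ C}

/-- The restriction of `f` to `p` when `f` preserves `p`, and `0` otherwise. -/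
def restr616 {M : Type} [AddCommGroup M] [Module ℂ M] (p : Submodule ℂ M) (f : M →ₗ[ℂ] M) :
    Module.End ℂ p :=
  open Classical in if h : ∀ x ∈ p, f x ∈ p then f.restrict h else 0

/-- `ψ` is right invariant under the level group `U(𝔫)`. -/
def IsLevelInv616 (𝔫 : Ideal (𝓞 K)) (ψ : G K → ℂ) : Prop :=
  ∀ u : G K, InLevelGroup 𝔫 u → ∀ x : G K, ψ (x * u) = ψ x

end Ops

/-! ## 2. The model -/

section Model

variable {K K' : Type} [Field K] [NumberField K] [Field K'] [NumberField K'] [Algebra K K']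

/-- The class space of `Φ` at the base level. -/
def cls616 (Dt : L2Data K K') (ℓ : ℕ) (Φ : HeckeEigensystem K' ℂ) : Submodule ℂ (G K' → ℂ) :=
  classSp616 Dt.𝔑₀ Dt.R'.r ℓ Dt.o (eigOf Φ)

/-- The double coset operators of the bad elements on the class space. -/
def gSet616 (Dt : L2Data K K') (ℓ : ℕ) (Φ : HeckeEigensystem K' ℂ) :
    Set (Module.End ℂ (cls616 Dt ℓ Φ)) :=
  {T | ∃ (g : G K') (Hg : Finset (G K')), Dt.IsBad g ∧ IsDblCosetSystem Dt.𝔑₀ g Hg ∧
    T = restr616 (cls616 Dt ℓ Φ) (cosetLin616 Hg)}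

/-- The sums of right translates supported at `o j` which preserve the class space. -/
def iSet616 (Dt : L2Data K K') (ℓ : ℕ) (Φ : HeckeEigensystem K' ℂ) (j : ℕ) :
    Set (Module.End ℂ (cls616 Dt ℓ Φ)) :=
  {T | ∃ H : Finset (G K'), (∀ h ∈ H, IsLocalAtFin (Dt.o j) h) ∧
    (∀ ψ ∈ cls616 Dt ℓ Φ, cosetLin616 H ψ ∈ cls616 Dt ℓ Φ) ∧
    T = restr616 (cls616 Dt ℓ Φ) (cosetLin616 H)}

/-- `R(σ)` on the class space. -/
def sOp616 (Dt : L2Data K K') (ℓ : ℕ) (Φ : HeckeEigensystem K' ℂ) :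
    Module.End ℂ (cls616 Dt ℓ Φ) :=
  restr616 (cls616 Dt ℓ Φ) (rsigLin616 Dt.s)

/-- `R(σ)⁻¹` on the class space. -/
def sInvOp616 (Dt : L2Data K K') (ℓ : ℕ) (Φ : HeckeEigensystem K' ℂ) :
    Module.End ℂ (cls616 Dt ℓ Φ) :=
  restr616 (cls616 Dt ℓ Φ) (rsigInvLin616 Dt.s)

end Model

/-! ## 3. The context and the leaves -/

section Leaves

variable (K K' : Type) [Field K] [NumberField K] [Field K'] [NumberField K'] [Algebra K K']

/-- The hypotheses of `SU736.ClassModelC`. -/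
structure Ctx616 (ℓ : ℕ) (Φ : HeckeEigensystem K' ℂ) (Dt : L2Data K K') : Prop where
  cyc : IsCycExt K K' ℓ
  odd : ℓ ≠ 2
  cplx : TotCplx K
  cusp : A0.IsCuspAdelicSph0 K' Φ
  const : ConstOnFibres K Φ
  data : IsL2Data ℓ Φ Dt
  stable : BaseStable Dt

/-- **LEAF CM.01 = FIN-DIM.**  The class space is finite dimensional. -/
def FinDimC616 : Prop :=
  ∀ (ℓ : ℕ) (Φ : HeckeEigensystem K' ℂ) (Dt : L2Data K K'), Ctx616 K K' ℓ Φ Dt →
    FiniteDimensional ℂ (cls616 Dt ℓ Φ)

/-- **LEAF CM.02 = NON-TRIVIAL.**  There is a non-zero invariant eigenfunction with the data of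
`Φ` at the base level (the form of `Φ`). -/
def NontrivC616 : Prop :=
  ∀ (ℓ : ℕ) (Φ : HeckeEigensystem K' ℂ) (Dt : L2Data K K'), Ctx616 K K' ℓ Φ Dt →
    ∃ ψ : G K' → ℂ, IsEigFn Dt.𝔑₀ Dt.R'.r ℓ Dt.o ψ (eigOf Φ) ∧ ∃ x : G K', ψ x ≠ 0

/-- **LEAF CM.03 = STAB-G.**  The double coset operator of a bad element maps the invariant
eigenfunctions with the data of `Φ` to such functions. -/
def StabGC616 : Prop :=
  ∀ (ℓ : ℕ) (Φ : HeckeEigensystem K' ℂ) (Dt : L2Data K K'), Ctx616 K K' ℓ Φ Dt →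
    ∀ (g : G K') (Hg : Finset (G K')), Dt.IsBad g → IsDblCosetSystem Dt.𝔑₀ g Hg →
      ∀ ψ : G K' → ℂ, IsEigFn Dt.𝔑₀ Dt.R'.r ℓ Dt.o ψ (eigOf Φ) →
        IsEigFn Dt.𝔑₀ Dt.R'.r ℓ Dt.o (cosetOp Hg ψ) (eigOf Φ)

/-- **LEAF CM.04 = STAB-S.**  `R(σ)` and `R(σ)⁻¹` map the invariant eigenfunctions with the data
of `Φ` to such functions (`BaseStable`, `IsL2Data.const`). -/
def StabSC616 : Prop :=
  ∀ (ℓ : ℕ) (Φ : HeckeEigensystem K' ℂ) (Dt : L2Data K K'), Ctx616 K K' ℓ Φ Dt →
    ∀ ψ : G K' → ℂ, IsEigFn Dt.𝔑₀ Dt.R'.r ℓ Dt.o ψ (eigOf Φ) →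
      IsEigFn Dt.𝔑₀ Dt.R'.r ℓ Dt.o (T5.Rsig Dt.s ψ) (eigOf Φ) ∧
        IsEigFn Dt.𝔑₀ Dt.R'.r ℓ Dt.o (fun x => ψ (Dt.s.onG x)) (eigOf Φ)

/-- **LEAF CM.05 = COMM-GI.**  On the functions `ψ` such that `ψ` and `cosetOp H ψ` are right
invariant under `U(𝔑₀)`, the double coset operator of a bad element commutes with the sum of the
right translates by a finite set `H` of elements supported at `o j`. -/
def CommGIC616 : Prop :=
  ∀ (ℓ : ℕ) (Φ : HeckeEigensystem K' ℂ) (Dt : L2Data K K'), Ctx616 K K' ℓ Φ Dt →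
    ∀ (g : G K') (Hg : Finset (G K')), Dt.IsBad g → IsDblCosetSystem Dt.𝔑₀ g Hg →
      ∀ j < ℓ, ∀ H : Finset (G K'), (∀ h ∈ H, IsLocalAtFin (Dt.o j) h) →
        ∀ ψ : G K' → ℂ, IsLevelInv616 Dt.𝔑₀ ψ → IsLevelInv616 Dt.𝔑₀ (cosetOp H ψ) →
          ∀ x : G K', cosetOp Hg (cosetOp H ψ) x = cosetOp H (cosetOp Hg ψ) x

/-- **LEAF CM.06 = LOC-COMM.**  Elements supported at two different places of the orbit
commute. -/
def LocCommC616 : Prop :=
  ∀ (ℓ : ℕ) (Φ : HeckeEigensystem K' ℂ) (Dt : L2Data K K'), Ctx616 K K' ℓ Φ Dt →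
    ∀ i < ℓ, ∀ j < ℓ, i ≠ j → ∀ h h' : G K',
      IsLocalAtFin (Dt.o i) h → IsLocalAtFin (Dt.o j) h' → h * h' = h' * h

/-- **LEAF CM.07 = LOC-MOVE.**  `σ⁻¹` maps the elements supported at `o (j+1)` to elements
supported at `o j`, and the elements supported at `o 0` to elements supported at `o (ℓ-1)`. -/
def LocMoveC616 : Prop :=
  ∀ (ℓ : ℕ) (Φ : HeckeEigensystem K' ℂ) (Dt : L2Data K K'), Ctx616 K K' ℓ Φ Dt →
    (∀ j : ℕ, j + 1 < ℓ → ∀ h : G K', IsLocalAtFin (Dt.o (j + 1)) h →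
      IsLocalAtFin (Dt.o j) (Dt.s.onGinv h)) ∧
    ∀ h : G K', IsLocalAtFin (Dt.o 0) h → IsLocalAtFin (Dt.o (ℓ - 1)) (Dt.s.onGinv h)

/-- **LEAF CM.08 = POW.**  `σ⁻ℓ = 1` on `GL₂(𝔸_{K'})`. -/
def PowC616 : Prop :=
  ∀ (ℓ : ℕ) (Φ : HeckeEigensystem K' ℂ) (Dt : L2Data K K'), Ctx616 K K' ℓ Φ Dt →
    ∀ x : G K', (⇑Dt.s.onGinv)^[ℓ] x = x

/-- **LEAF CM.09 = SIMPLE** (multiplicity one in module form).  A subspace of the class space
which is stable under the double coset operators of the bad elements and under the sums of right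
translates supported at the places of the orbit (those which preserve the class space) is `0` or
the class space. -/
def SimpleC616 : Prop :=
  ∀ (ℓ : ℕ) (Φ : HeckeEigensystem K' ℂ) (Dt : L2Data K K'), Ctx616 K K' ℓ Φ Dt →
    ∀ W : Submodule ℂ (G K' → ℂ), W ≤ cls616 Dt ℓ Φ →
      (∀ (g : G K') (Hg : Finset (G K')), Dt.IsBad g → IsDblCosetSystem Dt.𝔑₀ g Hg →
        ∀ ψ ∈ W, cosetOp Hg ψ ∈ W) →
      (∀ j < ℓ, ∀ H : Finset (G K'), (∀ h ∈ H, IsLocalAtFin (Dt.o j) h) →
        (∀ ψ ∈ cls616 Dt ℓ Φ, cosetOp H ψ ∈ cls616 Dt ℓ Φ) → ∀ ψ ∈ W, cosetOp H ψ ∈ W) →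
      W = ⊥ ∨ W = cls616 Dt ℓ Φ

/-- **LEAF CM.10 = MUL-G.**  On the functions which are right invariant under `U(𝔑₀)` the
product of two double coset operators of bad elements is a linear combination of double coset
operators of bad elements. -/
def MulGC616 : Prop :=
  ∀ (ℓ : ℕ) (Φ : HeckeEigensystem K' ℂ) (Dt : L2Data K K'), Ctx616 K K' ℓ Φ Dt →
    ∀ (g g' : G K') (Hg Hg' : Finset (G K')), Dt.IsBad g → IsDblCosetSystem Dt.𝔑₀ g Hg →
      Dt.IsBad g' → IsDblCosetSystem Dt.𝔑₀ g' Hg' →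
      ∃ (n : ℕ) (c : Fin n → ℂ) (g'' : Fin n → G K') (H'' : Fin n → Finset (G K')),
        (∀ i, Dt.IsBad (g'' i) ∧ IsDblCosetSystem Dt.𝔑₀ (g'' i) (H'' i)) ∧
        ∀ ψ : G K' → ℂ, IsLevelInv616 Dt.𝔑₀ ψ →
          ∀ x : G K', cosetOp Hg (cosetOp Hg' ψ) x = ∑ i, c i * cosetOp (H'' i) ψ x

/-- **LEAF CM.11 = DICT.**  For every finite orthonormal basis of the class space the twisted
trace of `[U g U] R(σ)` is the trace of the operator of the model. -/
def DictC616 : Prop :=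
  ∀ (ℓ : ℕ) (Φ : HeckeEigensystem K' ℂ) (Dt : L2Data K K'), Ctx616 K K' ℓ Φ Dt →
    ∀ (g : G K') (Hg : Finset (G K')), Dt.IsBad g → IsDblCosetSystem Dt.𝔑₀ g Hg →
      ∀ (q : ℕ → G K' → ℂ) (J : Finset ℕ),
        IsClassBasisOn Dt.𝔑₀ Dt.R' ℓ Dt.o (eigOf Φ) q J →
          twTrace Dt.s Dt.R' Hg q J
            = LinearMap.trace ℂ (cls616 Dt ℓ Φ)
                (restr616 (cls616 Dt ℓ Φ) (cosetLin616 Hg) * sOp616 Dt ℓ Φ)

end Leaves

/-! ## Appendix (v0.1, additive): the equation lemmas of the definitions are realised HERE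

Same device as the appendices of `T7/Comparison.lean` v0.1 (helper797) and `T7/H736/SpecUp.lean`
v0.1 (helper736): the equation lemmas of a definition are generated in the module which first
unfolds it; citing them here generates them once, upstream of every user.  No statement of this
file is changed. -/

theorem eqns_realised_classModel616 : True := by
  have _a0 := @cosetLin616.eq_1
  have _b0 := @cosetLin616.eq_def
  have _c0 := @cosetLin616.eq_unfold
  have _a1 := @rsigLin616.eq_1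
  have _b1 := @rsigLin616.eq_def
  have _c1 := @rsigLin616.eq_unfold
  have _a2 := @rsigInvLin616.eq_1
  have _b2 := @rsigInvLin616.eq_def
  have _c2 := @rsigInvLin616.eq_unfold
  have _a3 := @classSp616.eq_1
  have _b3 := @classSp616.eq_def
  have _c3 := @classSp616.eq_unfold
  have _a4 := @restr616.eq_1
  have _b4 := @restr616.eq_def
  have _c4 := @restr616.eq_unfold
  have _a5 := @IsLevelInv616.eq_1
  have _b5 := @IsLevelInv616.eq_def
  have _c5 := @IsLevelInv616.eq_unfold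
  have _a6 := @cls616.eq_1
  have _b6 := @cls616.eq_def
  have _c6 := @cls616.eq_unfold
  have _a7 := @gSet616.eq_1
  have _b7 := @gSet616.eq_def
  have _c7 := @gSet616.eq_unfold
  have _a8 := @iSet616.eq_1
  have _b8 := @iSet616.eq_def
  have _c8 := @iSet616.eq_unfold
  have _a9 := @sOp616.eq_1
  have _b9 := @sOp616.eq_def
  have _c9 := @sOp616.eq_unfold
  have _a10 := @sInvOp616.eq_1
  have _b10 := @sInvOp616.eq_def
  have _c10 := @sInvOp616.eq_unfold
  have _a11 := @FinDimC616.eq_1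
  have _b11 := @FinDimC616.eq_def
  have _c11 := @FinDimC616.eq_unfold
  have _a12 := @NontrivC616.eq_1
  have _b12 := @NontrivC616.eq_def
  have _c12 := @NontrivC616.eq_unfold
  have _a13 := @StabGC616.eq_1
  have _b13 := @StabGC616.eq_def
  have _c13 := @StabGC616.eq_unfold
  have _a14 := @StabSC616.eq_1
  have _b14 := @StabSC616.eq_def
  have _c14 := @StabSC616.eq_unfold
  have _a15 := @CommGIC616.eq_1
  have _b15 := @CommGIC616.eq_def
  have _c15 := @CommGIC616.eq_unfold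
  have _a16 := @LocCommC616.eq_1
  have _b16 := @LocCommC616.eq_def
  have _c16 := @LocCommC616.eq_unfold
  have _a17 := @LocMoveC616.eq_1
  have _b17 := @LocMoveC616.eq_def
  have _c17 := @LocMoveC616.eq_unfold
  have _a18 := @PowC616.eq_1
  have _b18 := @PowC616.eq_def
  have _c18 := @PowC616.eq_unfold
  have _a19 := @SimpleC616.eq_1
  have _b19 := @SimpleC616.eq_def
  have _c19 := @SimpleC616.eq_unfold
  have _a20 := @MulGC616.eq_1
  have _b20 := @MulGC616.eq_def
  have _c20 := @MulGC616.eq_unfold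
  have _a21 := @DictC616.eq_1
  have _b21 := @DictC616.eq_def
  have _c21 := @DictC616.eq_unfold
  trivial

end Fermat.Agent.LT.T7.CM616

end
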