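import Mathlib
import Fermat.Agent.S29.H872.Burnside

/-!
# Row LT, tower T7, step C5: NON-VANISHING OF THE TWISTED TRACE FOR REGULAR TEST FUNCTIONS
# (helper616, OFF-MAIN asset; abstract linear algebra, no automorphic content)

Imports: Mathlib + `Fermat/Agent/S29/H872/Burnside.lean` (plain module of main).

## The problem

In the comparison (`T7.TraceWordsEKC`) the test function over `K'` is
`φ = φ_bad ⊗ φ_u ⊗ (EK at v₀) ⊗ (units)`, where at the `σ`-orbit `o 0, …, o (l-1)` over the split
auxiliary place `u` the component is FORCED by `T5.HasRegularSupport`: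
`φ_u = 1_{I t^m I}` at `o 0` and `1_I` at `o j`, `j > 0` (`I` Iwahori, `t = diag(ϖ, 1)`, `m ≥ m₀`).
On the class space `V = V(C₀)` at Iwahori level the operator `R(φ_u)` is NOT a scalar, and the
algebra spanned by the admissible `R(φ)` is much smaller than the algebra generated by all
double coset operators: Burnside alone (asset `T7/H11/TwTrace.lean` of helper11) produces a
word with non-zero twisted trace, but a word which uses arbitrary Iwahori--Hecke operators at
the places `o j` is not an admissible test function.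

## The result

`V` a non-zero finite-dimensional complex vector space, `A`, `H 0, …, H (l-1)` pairwise commuting
subalgebras of `End V` which together GENERATE `End V`, `S` an invertible operator with
`S⁻¹ (H (j+1)) S ⊆ H j` (`j + 1 < l`), `S⁻¹ (H 0) S ⊆ H (l-1)`, `S ^ l` commuting with `H 0`.

* `twisted_trace_formula616`: there is `a ∈ A` with `tr(a S) ≠ 0`, and for ALL `a ∈ A`, `h ∈ H 0`

      tr(a h S) · dim V = tr(a S) · tr(h).

* `exists_regular_twisted_trace_ne_zero616`: if moreover `b ∈ H 0` is injective, there is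
  `a ∈ A` such that for every `m₀` some `m ≥ m₀` has `tr(a bᵐ S) ≠ 0`.

## Use (C5 of `coord/LT-T7-helper797.md`)

`V` = the class space of `Φ` at level `U(𝔫)` at the bad places and Iwahori at the `o j`;
`S = R(σ)`, `Sinv = R(σ⁻¹)` (`S ^ l = 1`); `A` = the image of the Hecke algebra at the bad places;
`H j` = the image of the Iwahori--Hecke algebra at `o j` (`R(σ)⁻¹ R(φ) R(σ) = R(φ ∘ σ)` moves
`o (j+1) = σ(o j)` to `o j`; if the orbit is numbered the other way round, apply the theorem to
`H' j = H ((l - j) % l)`); `b = R(1_{I t I})` at `o 0`, `bᵐ = R(1_{I t^m I})` (lengths add),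
injective because `T_t = T_s T_ω` with `T_ω` invertible and `T_s² = (q - 1) T_s + q`.
GENERATION: `Algebra.adjoin = ⊤` follows from LINKING = `T2.H941.MatchC` by
`T7.H11.eq_top_of_linked_h11` (the double coset operators of `U x U` factor into local ones; the
factors at the places where the forms are spherical eigenfunctions are scalars).
So NO old/new decomposition at `u` and NO tensor product has to be constructed: linking makes the
class space simple, hence "old at `u`", and the formula computes the twisted trace.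

## Proof

1. `tr(x k S) = tr((S⁻¹ k S) x S)` moves a factor of `H (j+1)` into `H j`: the twisted trace
   vanishes on `A · H 0 ⋯ H (l-1) = End V` if it vanishes on `A · H 0` (`exists_pair616`).
2. Moving `h' ∈ H 0` once around the orbit: `h ↦ tr(a h S)` is a TRACE functional on `H 0`
   (`twisted_traceFn616`).
3. `H 0` and the algebra `C` generated by the other factors commute and act jointly
   irreducibly, so `H 0 ≅ End N` for a minimal `H 0`-invariant subspace `N` (Burnside; `H 0` is
   faithful on `N` because `C N` spans `V`), and a trace functional on a full matrix algebra is a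
   multiple of the trace (`traceFn_of_commuting616`).
4. The power traces of an injective operator do not all vanish from some exponent on
   (`exists_trace_pow_ne_zero616`, minimal polynomial with non-zero constant term).
-/

set_option autoImplicit false

open Module

namespace Fermat.Agent.LT.T7.H616

section Part1

/-- A trace functional on a full matrix algebra is a multiple of the trace. -/
theorem matrix_traceFn616 {n : Type*} [Fintype n] [DecidableEq n]
    (g : Matrix n n ℂ →ₗ[ℂ] ℂ) (hg : ∀ x y : Matrix n n ℂ, g (x * y) = g (y * x))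
    (x : Matrix n n ℂ) : g x * (Fintype.card n : ℂ) = g 1 * Matrix.trace x := by
  classical
  -- off-diagonal units are killed
  have hoff : ∀ i j : n, i ≠ j → g (Matrix.single i j (1 : ℂ)) = 0 := by
    intro i j hij
    have h1 : Matrix.single i i (1 : ℂ) * Matrix.single i j (1 : ℂ) = Matrix.single i j 1 := by
      simp
    have h2 : Matrix.single i j (1 : ℂ) * Matrix.single i i (1 : ℂ) = 0 := by
      rw [Matrix.single_mul_single_of_ne]
      exact fun h => hij h.symm
    rw [← h1, hg, h2, map_zero]
  -- diagonal units have the same value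
  have hdiag : ∀ i j : n, g (Matrix.single i i (1 : ℂ)) = g (Matrix.single j j (1 : ℂ)) := by
    intro i j
    have h1 : Matrix.single i j (1 : ℂ) * Matrix.single j i (1 : ℂ) = Matrix.single i i 1 := by
      simp
    have h2 : Matrix.single j i (1 : ℂ) * Matrix.single i j (1 : ℂ) = Matrix.single j j 1 := by
      simp
    rw [← h1, hg, h2]
  -- expand
  have hx : x = ∑ i, ∑ j, x i j • Matrix.single i j (1 : ℂ) := by
    conv_lhs => rw [Matrix.matrix_eq_sum_single x]
    refine Finset.sum_congr rfl fun i _ => Finset.sum_congr rfl fun j _ => ?_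
    simp [Matrix.smul_single]
  have hgx : ∀ i₀ : n, g x = Matrix.trace x * g (Matrix.single i₀ i₀ (1 : ℂ)) := by
    intro i₀
    conv_lhs => rw [hx]
    simp only [map_sum, map_smul, smul_eq_mul]
    rw [Matrix.trace, Finset.sum_mul]
    refine Finset.sum_congr rfl fun i _ => ?_
    rw [Finset.sum_eq_single i]
    · rw [hdiag i i₀]; rfl
    · intro j _ hji
      rw [hoff i j (fun h => hji h.symm), mul_zero]
    · intro h; exact absurd (Finset.mem_univ i) h
  rcases isEmpty_or_nonempty n with hn | hn
  · have : x = 0 := Subsingleton.elim _ _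
    have h1 : (1 : Matrix n n ℂ) = 0 := Subsingleton.elim _ _
    simp [this, h1]
  · obtain ⟨i₀⟩ := hn
    have h1 := hgx i₀
    have h2 : g 1 = (Fintype.card n : ℂ) * g (Matrix.single i₀ i₀ (1 : ℂ)) := by
      have : g 1 = ∑ i : n, g (Matrix.single i i (1 : ℂ)) := by
        rw [← map_sum]
        congr 1
        ext a b
        rw [Matrix.sum_apply]
        by_cases hab : a = b
        · subst hab
          rw [Matrix.one_apply_eq, Finset.sum_eq_single a]
          · simp
          · intro c _ hca
            simp [hca]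
          · intro h; exact absurd (Finset.mem_univ a) h
        · rw [Matrix.one_apply_ne hab]
          symm
          refine Finset.sum_eq_zero fun c _ => ?_
          simp only [Matrix.single_apply]
          rw [if_neg]
          rintro ⟨rfl, rfl⟩
          exact hab rfl
      rw [this, Finset.sum_congr rfl (fun i _ => hdiag i i₀)]
      simp
    rw [h1, h2]; ring

end Part1

section Part2

/-- A trace functional on `End N` is a multiple of the trace. -/
theorem end_traceFn616 {N : Type*} [AddCommGroup N] [Module ℂ N] [FiniteDimensional ℂ N]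
    (g : Module.End ℂ N →ₗ[ℂ] ℂ) (hg : ∀ x y : Module.End ℂ N, g (x * y) = g (y * x))
    (x : Module.End ℂ N) :
    g x * (Module.finrank ℂ N : ℂ) = g 1 * LinearMap.trace ℂ N x := by
  classical
  let b := Module.finBasis ℂ N
  let e := algEquivMatrix b
  let g' : Matrix (Fin (Module.finrank ℂ N)) (Fin (Module.finrank ℂ N)) ℂ →ₗ[ℂ] ℂ :=
    g ∘ₗ e.symm.toLinearMap
  have hg' : ∀ x y, g' (x * y) = g' (y * x) := by
    intro x y
    simp only [g', LinearMap.comp_apply, AlgEquiv.toLinearMap_apply, map_mul]
    exact hg _ _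
  have h := matrix_traceFn616 g' hg' (e x)
  simp only [g', LinearMap.comp_apply, AlgEquiv.toLinearMap_apply, AlgEquiv.symm_apply_apply,
    map_one, Fintype.card_fin] at h
  rw [h]
  congr 1
  rw [LinearMap.trace_eq_matrix_trace ℂ b x]
  rfl

/-- The power traces of an injective endomorphism of a non-zero finite-dimensional space do not
all vanish from some exponent on. -/
theorem exists_trace_pow_ne_zero616 {V : Type*} [AddCommGroup V] [Module ℂ V]
    [FiniteDimensional ℂ V] [Nontrivial V] (b : Module.End ℂ V) (hb : Function.Injective b)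
    (m₀ : ℕ) : ∃ m, m₀ ≤ m ∧ LinearMap.trace ℂ V (b ^ m) ≠ 0 := by
  by_contra hcon
  push Not at hcon
  set p := minpoly ℂ b with hp
  have hp0 : p.coeff 0 ≠ 0 := LinearMap.minpoly_coeff_zero_of_injective hb
  have hpb : Polynomial.aeval b p = 0 := minpoly.aeval ℂ b
  -- the recurrence
  have hrec : ∀ m : ℕ, ∑ i ∈ Finset.range (p.natDegree + 1),
      p.coeff i * LinearMap.trace ℂ V (b ^ (i + m)) = 0 := by
    intro m
    have h1 : (∑ i ∈ Finset.range (p.natDegree + 1), p.coeff i • b ^ i) * b ^ m = 0 := by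
      rw [← Polynomial.aeval_eq_sum_range, hpb, zero_mul]
    have h2 := congrArg (LinearMap.trace ℂ V) h1
    rw [Finset.sum_mul, map_sum, map_zero] at h2
    rw [← h2]
    refine Finset.sum_congr rfl fun i _ => ?_
    rw [smul_mul_assoc, map_smul, smul_eq_mul, pow_add]
  have hall : ∀ k : ℕ, ∀ m : ℕ, m₀ - k ≤ m → LinearMap.trace ℂ V (b ^ m) = 0 := by
    intro k
    induction k with
    | zero => intro m hm; exact hcon m (by simpa using hm)
    | succ k ih =>
      intro m hm
      by_cases hmk : m₀ - k ≤ m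
      · exact ih m hmk
      · have hr := hrec m
        rw [Finset.sum_range_succ'] at hr
        have hz : ∑ i ∈ Finset.range p.natDegree,
            p.coeff (i + 1) * LinearMap.trace ℂ V (b ^ (i + 1 + m)) = 0 := by
          refine Finset.sum_eq_zero fun i _ => ?_
          rw [ih (i + 1 + m) (by omega), mul_zero]
        rw [hz, zero_add, zero_add] at hr
        rcases mul_eq_zero.1 hr with h | h
        · exact absurd h hp0
        · exact h
  have h0 := hall m₀ 0 (by omega)
  rw [pow_zero, LinearMap.trace_one] at h0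
  have : (Module.finrank ℂ V : ℂ) ≠ 0 := by
    have : 0 < Module.finrank ℂ V := Module.finrank_pos
    exact_mod_cast this.ne'
  exact this h0

/-- Moving a factor around the twisted trace. -/
theorem trace_move616 {V : Type*} [AddCommGroup V] [Module ℂ V]
    (S Sinv : Module.End ℂ V) (hS : S * Sinv = 1) (x k : Module.End ℂ V) :
    LinearMap.trace ℂ V (x * k * S) = LinearMap.trace ℂ V ((Sinv * k * S) * x * S) := by
  have h : x * k * S = (x * S) * (Sinv * k * S) := by
    calc x * k * S = x * (1 * k) * S := by rw [one_mul]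
      _ = x * ((S * Sinv) * k) * S := by rw [hS]
      _ = (x * S) * (Sinv * k * S) := by simp only [mul_assoc]
  rw [h, LinearMap.trace_mul_comm]
  simp only [mul_assoc]

end Part2

section Part3

variable {V : Type*} [AddCommGroup V] [Module ℂ V]

/-- The restriction of a subalgebra of `End V` to an invariant subspace. -/
def restrictHom616 (H : Subalgebra ℂ (Module.End ℂ V)) (N : Submodule ℂ V)
    (hN : ∀ h ∈ H, N ≤ N.comap h) : H →ₐ[ℂ] Module.End ℂ N where
  toFun h := (h : Module.End ℂ V).restrict (fun x hx => hN h h.2 hx)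
  map_one' := by
    ext x
    simp
  map_mul' h h' := by
    ext x
    simp
  map_zero' := by
    ext x
    simp
  map_add' h h' := by
    ext x
    simp
  commutes' r := by
    ext x
    simp

theorem restrictHom616_apply (H : Subalgebra ℂ (Module.End ℂ V)) (N : Submodule ℂ V)
    (hN : ∀ h ∈ H, N ≤ N.comap h) (h : H) (x : N) :
    ((restrictHom616 H N hN h) x : V) = (h : Module.End ℂ V) x := rfl

variable [FiniteDimensional ℂ V]

/-- A minimal non-zero invariant subspace exists. -/
theorem exists_minimal_invariant616 [Nontrivial V] (H : Subalgebra ℂ (Module.End ℂ V)) :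
    ∃ N : Submodule ℂ V, N ≠ ⊥ ∧ (∀ h ∈ H, N ≤ N.comap h) ∧
      ∀ N' : Submodule ℂ V, N' ≤ N → (∀ h ∈ H, N' ≤ N'.comap h) → N' = ⊥ ∨ N' = N := by
  classical
  let P : ℕ → Prop := fun d => ∃ N : Submodule ℂ V, N ≠ ⊥ ∧ (∀ h ∈ H, N ≤ N.comap h) ∧
    Module.finrank ℂ N = d
  have hex : ∃ d, P d := ⟨Module.finrank ℂ (⊤ : Submodule ℂ V), ⊤, top_ne_bot,
    fun _ _ _ _ => Submodule.mem_top, rfl⟩
  obtain ⟨N, hN0, hNinv, hNd⟩ := Nat.find_spec hex
  refine ⟨N, hN0, hNinv, ?_⟩
  intro N' hle hinv
  by_cases h0 : N' = ⊥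
  · exact Or.inl h0
  · right
    have hmin : Nat.find hex ≤ Module.finrank ℂ N' := Nat.find_min' hex ⟨N', h0, hinv, rfl⟩
    exact Submodule.eq_of_le_of_finrank_le hle (by rw [hNd]; exact hmin)

end Part3

section Part4

variable {V : Type*} [AddCommGroup V] [Module ℂ V] [FiniteDimensional ℂ V]

/-- **Trace functionals on one of two commuting subalgebras which act jointly irreducibly.**
`H`, `C` commuting subalgebras of `End V` without a common non-trivial invariant subspace.  Then
`H` is a full matrix algebra (Burnside on a minimal `H`-invariant subspace `N`; `H` acts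
faithfully on `N` because `C N` spans `V`), and every trace functional on `H` is a multiple of the
trace of `V`. -/
theorem traceFn_of_commuting616 [Nontrivial V] (H C : Subalgebra ℂ (Module.End ℂ V))
    (hcomm : ∀ h ∈ H, ∀ c ∈ C, h * c = c * h)
    (hirr : ∀ Z : Submodule ℂ V, (∀ x ∈ H, Z ≤ Z.comap x) → (∀ x ∈ C, Z ≤ Z.comap x) →
      Z = ⊥ ∨ Z = ⊤)
    (G : Module.End ℂ V →ₗ[ℂ] ℂ) (hG : ∀ h ∈ H, ∀ h' ∈ H, G (h * h') = G (h' * h)) :
    ∀ h ∈ H, G h * (Module.finrank ℂ V : ℂ) = G 1 * LinearMap.trace ℂ V h := by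
  classical
  obtain ⟨N, hN0, hNinv, hNmin⟩ := exists_minimal_invariant616 H
  set ρ := restrictHom616 H N hNinv with hρ
  have : Nontrivial N := (Submodule.nontrivial_iff_ne_bot).2 hN0
  -- surjectivity: Burnside
  have hrange : ρ.range = ⊤ := by
    apply Fermat.Agent.S29.H872.burnside
    intro W hW
    have hinv : ∀ h ∈ H, W.map N.subtype ≤ (W.map N.subtype).comap h := by
      intro h hh v hv
      obtain ⟨w, hw, rfl⟩ := hv
      refine ⟨ρ ⟨h, hh⟩ w, hW (ρ ⟨h, hh⟩) ⟨⟨h, hh⟩, rfl⟩ hw, ?_⟩
      rfl
    rcases hNmin (W.map N.subtype) (Submodule.map_subtype_le N W) hinv with h | h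
    · left
      apply Submodule.map_injective_of_injective N.injective_subtype
      rw [h, Submodule.map_bot]
    · right
      apply Submodule.map_injective_of_injective N.injective_subtype
      rw [h, Submodule.map_subtype_top]
  have hsurj : Function.Surjective ρ := by
    intro x
    have : x ∈ ρ.range := by rw [hrange]; exact Algebra.mem_top
    exact this
  -- injectivity: `C N` spans `V`
  have hinj : Function.Injective ρ := by
    rw [injective_iff_map_eq_zero]
    intro h hh0
    have hkill : ∀ x ∈ N, (h : Module.End ℂ V) x = 0 := by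
      intro x hx
      have := congrArg (fun f : Module.End ℂ N => ((f ⟨x, hx⟩ : N) : V)) hh0
      simpa [hρ, restrictHom616_apply] using this
    let Z : Submodule ℂ V :=
      { carrier := {v | ∀ x ∈ H, (h : Module.End ℂ V) (x v) = 0}
        add_mem' := by
          intro a b ha hb x hx
          rw [map_add, map_add, ha x hx, hb x hx, add_zero]
        zero_mem' := by
          intro x _
          rw [map_zero, map_zero]
        smul_mem' := by
          intro c a ha x hx
          rw [map_smul, map_smul, ha x hx, smul_zero] }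
    have hZH : ∀ x ∈ H, Z ≤ Z.comap x := by
      intro x hx v hv y hy
      have := hv (y * x) (H.mul_mem hy hx)
      simpa using this
    have hZC : ∀ c ∈ C, Z ≤ Z.comap c := by
      intro c hc v hv y hy
      change (h : Module.End ℂ V) (y (c v)) = 0
      have h1 : y (c v) = c (y v) := by
        have := congrArg (fun f : Module.End ℂ V => f v) (hcomm y hy c hc)
        simpa using this
      have h2 : (h : Module.End ℂ V) (c (y v)) = c ((h : Module.End ℂ V) (y v)) := by
        have := congrArg (fun f : Module.End ℂ V => f (y v)) (hcomm h h.2 c hc)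
        simpa using this
      rw [h1, h2, hv y hy, map_zero]
    have hNZ : N ≤ Z := by
      intro v hv x hx
      exact hkill (x v) (hNinv x hx hv)
    have hZtop : Z = ⊤ := by
      rcases hirr Z hZH hZC with h | h
      · exfalso
        apply hN0
        rw [eq_bot_iff, ← h]
        exact hNZ
      · exact h
    apply Subtype.ext
    ext v
    have hv : v ∈ Z := by rw [hZtop]; exact Submodule.mem_top
    have := hv 1 H.one_mem
    simpa using this
  let e : H ≃ₐ[ℂ] Module.End ℂ N := AlgEquiv.ofBijective ρ ⟨hinj, hsurj⟩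
  -- the two trace functionals on `End N`
  let g : Module.End ℂ N →ₗ[ℂ] ℂ := G ∘ₗ H.val.toLinearMap ∘ₗ e.symm.toLinearMap
  let g₂ : Module.End ℂ N →ₗ[ℂ] ℂ :=
    (LinearMap.trace ℂ V) ∘ₗ H.val.toLinearMap ∘ₗ e.symm.toLinearMap
  have hg : ∀ x y : Module.End ℂ N, g (x * y) = g (y * x) := by
    intro x y
    simp only [g, LinearMap.comp_apply, AlgEquiv.toLinearMap_apply, AlgHom.toLinearMap_apply,
      map_mul]
    exact hG _ (e.symm x).2 _ (e.symm y).2
  have hg₂ : ∀ x y : Module.End ℂ N, g₂ (x * y) = g₂ (y * x) := by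
    intro x y
    simp only [g₂, LinearMap.comp_apply, AlgEquiv.toLinearMap_apply, AlgHom.toLinearMap_apply,
      map_mul]
    exact LinearMap.trace_mul_comm ℂ _ _
  intro h hh
  have h1 := end_traceFn616 g hg (e ⟨h, hh⟩)
  have h2 := end_traceFn616 g₂ hg₂ (e ⟨h, hh⟩)
  simp only [g, g₂, LinearMap.comp_apply, AlgEquiv.toLinearMap_apply, AlgHom.toLinearMap_apply,
    AlgEquiv.symm_apply_apply, map_one, Subalgebra.coe_val, LinearMap.trace_one] at h1 h2
  have hn : (Module.finrank ℂ N : ℂ) ≠ 0 := by
    have : 0 < Module.finrank ℂ N := Module.finrank_pos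
    exact_mod_cast this.ne'
  apply mul_right_cancel₀ hn
  calc G h * (Module.finrank ℂ V : ℂ) * (Module.finrank ℂ N : ℂ)
      = (G h * (Module.finrank ℂ N : ℂ)) * (Module.finrank ℂ V : ℂ) := by ring
    _ = G 1 * ((Module.finrank ℂ V : ℂ) * LinearMap.trace ℂ N (e ⟨h, hh⟩)) := by rw [h1]; ring
    _ = G 1 * LinearMap.trace ℂ V h * (Module.finrank ℂ N : ℂ) := by rw [← h2]; ring

end Part4

section Part5

section Products

variable {E : Type*} [Ring E] [Algebra ℂ E]

/-- The product of two commuting multiplicatively closed subspaces is multiplicatively closed. -/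
theorem mul_closed_of_commute616 (M N : Submodule ℂ E)
    (hM : ∀ x ∈ M, ∀ y ∈ M, x * y ∈ M) (hN : ∀ x ∈ N, ∀ y ∈ N, x * y ∈ N)
    (hc : ∀ m ∈ M, ∀ n ∈ N, n * m = m * n) :
    ∀ x ∈ M * N, ∀ y ∈ M * N, x * y ∈ M * N := by
  intro x hx y hy
  refine Submodule.mul_induction_on hx ?_ ?_
  · intro m hm n hn
    refine Submodule.mul_induction_on hy ?_ ?_
    · intro m' hm' n' hn'
      have : m * n * (m' * n') = (m * m') * (n * n') := by
        calc m * n * (m' * n') = m * (n * m') * n' := by simp only [mul_assoc]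
          _ = m * (m' * n) * n' := by rw [hc m' hm' n hn]
          _ = (m * m') * (n * n') := by simp only [mul_assoc]
      rw [this]
      exact Submodule.mul_mem_mul (hM m hm m' hm') (hN n hn n' hn')
    · intro a b ha hb
      rw [mul_add]
      exact Submodule.add_mem _ ha hb
  · intro a b ha hb
    rw [add_mul]
    exact Submodule.add_mem _ ha hb

/-- An element commuting with both factors commutes with the product. -/
theorem commute_mul616 (M N : Submodule ℂ E) (k : E)
    (hM : ∀ m ∈ M, k * m = m * k) (hN : ∀ n ∈ N, k * n = n * k) :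
    ∀ x ∈ M * N, k * x = x * k := by
  intro x hx
  refine Submodule.mul_induction_on hx ?_ ?_
  · intro m hm n hn
    calc k * (m * n) = (k * m) * n := by rw [mul_assoc]
      _ = m * (k * n) := by rw [hM m hm, mul_assoc]
      _ = m * n * k := by rw [hN n hn, mul_assoc]
  · intro a b ha hb
    rw [mul_add, add_mul, ha, hb]

end Products

variable {V : Type*} [AddCommGroup V] [Module ℂ V]

/-- The chain of products `A · H 0 · H 1 ⋯ H j`. -/
def chain616 (A : Subalgebra ℂ (Module.End ℂ V)) (H : ℕ → Subalgebra ℂ (Module.End ℂ V)) :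
    ℕ → Submodule ℂ (Module.End ℂ V)
  | 0 => Subalgebra.toSubmodule A * Subalgebra.toSubmodule (H 0)
  | j + 1 => chain616 A H j * Subalgebra.toSubmodule (H (j + 1))

/-- The properties of the chain which are carried along the induction. -/
structure ChainGood616 (l : ℕ) (A : Subalgebra ℂ (Module.End ℂ V))
    (H : ℕ → Subalgebra ℂ (Module.End ℂ V)) (F : Module.End ℂ V →ₗ[ℂ] ℂ) (j : ℕ) : Prop where
  one_mem : (1 : Module.End ℂ V) ∈ chain616 A H j
  mul_mem : ∀ x ∈ chain616 A H j, ∀ y ∈ chain616 A H j, x * y ∈ chain616 A H j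
  A_le : ∀ a ∈ A, a ∈ chain616 A H j
  H_le : ∀ i ≤ j, ∀ h ∈ H i, h ∈ chain616 A H j
  comm : ∀ i, j < i → i < l → ∀ k ∈ H i, ∀ x ∈ chain616 A H j, k * x = x * k
  vanish : ∀ x ∈ chain616 A H j, F x = 0

theorem chainGood616 (l : ℕ) (A : Subalgebra ℂ (Module.End ℂ V))
    (H : ℕ → Subalgebra ℂ (Module.End ℂ V))
    (S Sinv : Module.End ℂ V) (hS : S * Sinv = 1)
    (hAH : ∀ j < l, ∀ a ∈ A, ∀ h ∈ H j, a * h = h * a)
    (hHH : ∀ i < l, ∀ j < l, i ≠ j → ∀ h ∈ H i, ∀ h' ∈ H j, h * h' = h' * h)
    (hdown : ∀ j, j + 1 < l → ∀ h ∈ H (j + 1), Sinv * h * S ∈ H j)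
    (F : Module.End ℂ V →ₗ[ℂ] ℂ) (hF : ∀ x, F x = LinearMap.trace ℂ V (x * S))
    (h0 : ∀ a ∈ A, ∀ h ∈ H 0, F (a * h) = 0) :
    ∀ j, j < l → ChainGood616 l A H F j := by
  intro j
  induction j with
  | zero =>
    intro hl
    refine ⟨?_, ?_, ?_, ?_, ?_, ?_⟩
    · have := Submodule.mul_mem_mul (M := Subalgebra.toSubmodule A)
        (N := Subalgebra.toSubmodule (H 0)) A.one_mem (H 0).one_mem
      simpa [chain616] using this
    · exact mul_closed_of_commute616 _ _ (fun x hx y hy => A.mul_mem hx hy)
        (fun x hx y hy => (H 0).mul_mem hx hy) (fun m hm n hn => (hAH 0 hl m hm n hn).symm)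
    · intro a ha
      have := Submodule.mul_mem_mul (M := Subalgebra.toSubmodule A)
        (N := Subalgebra.toSubmodule (H 0)) ha (H 0).one_mem
      simpa [chain616] using this
    · intro i hi h hh
      have hi0 : i = 0 := by omega
      subst hi0
      have := Submodule.mul_mem_mul (M := Subalgebra.toSubmodule A)
        (N := Subalgebra.toSubmodule (H 0)) A.one_mem hh
      simpa [chain616] using this
    · intro i hi hil k hk
      exact commute_mul616 _ _ k (fun m hm => (hAH i hil m hm k hk).symm)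
        (fun n hn => hHH i hil 0 hl (by omega) k hk n hn)
    · intro x hx
      refine Submodule.mul_induction_on hx ?_ ?_
      · intro m hm n hn
        exact h0 m hm n hn
      · intro a b ha hb
        rw [map_add, ha, hb, add_zero]
  | succ j ih =>
    intro hl
    have hj : j < l := by omega
    have g := ih hj
    refine ⟨?_, ?_, ?_, ?_, ?_, ?_⟩
    · have := Submodule.mul_mem_mul (M := chain616 A H j)
        (N := Subalgebra.toSubmodule (H (j + 1))) g.one_mem (H (j + 1)).one_mem
      simpa [chain616] using this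
    · exact mul_closed_of_commute616 _ _ g.mul_mem
        (fun x hx y hy => (H (j + 1)).mul_mem hx hy)
        (fun m hm n hn => g.comm (j + 1) (by omega) hl n hn m hm)
    · intro a ha
      have := Submodule.mul_mem_mul (M := chain616 A H j)
        (N := Subalgebra.toSubmodule (H (j + 1))) (g.A_le a ha) (H (j + 1)).one_mem
      simpa [chain616] using this
    · intro i hi h hh
      rcases Nat.lt_or_ge i (j + 1) with hlt | hge
      · have := Submodule.mul_mem_mul (M := chain616 A H j)
          (N := Subalgebra.toSubmodule (H (j + 1))) (g.H_le i (by omega) h hh)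
          (H (j + 1)).one_mem
        simpa [chain616] using this
      · have hi1 : i = j + 1 := by omega
        subst hi1
        have := Submodule.mul_mem_mul (M := chain616 A H j)
          (N := Subalgebra.toSubmodule (H (j + 1))) g.one_mem hh
        simpa [chain616] using this
    · intro i hi hil k hk
      exact commute_mul616 _ _ k (fun m hm => g.comm i (by omega) hil k hk m hm)
        (fun n hn => hHH i hil (j + 1) hl (by omega) k hk n hn)
    · intro x hx
      refine Submodule.mul_induction_on hx ?_ ?_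
      · intro m hm n hn
        rw [hF, trace_move616 S Sinv hS m n, ← hF]
        have hk' : Sinv * n * S ∈ chain616 A H j := g.H_le j le_rfl _ (hdown j hl n hn)
        exact g.vanish _ (g.mul_mem _ hk' _ hm)
      · intro a b ha hb
        rw [map_add, ha, hb, add_zero]

end Part5

section Part6

variable {V : Type*} [AddCommGroup V] [Module ℂ V] [FiniteDimensional ℂ V]

/-- The twisted trace functional `x ↦ tr(x S)`. -/
noncomputable def twTr616 (S : Module.End ℂ V) : Module.End ℂ V →ₗ[ℂ] ℂ :=
  (LinearMap.trace ℂ V) ∘ₗ (LinearMap.mulRight ℂ S)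

omit [FiniteDimensional ℂ V] in
theorem twTr616_apply (S x : Module.End ℂ V) :
    twTr616 S x = LinearMap.trace ℂ V (x * S) := rfl

/-- **Step 1.**  If the commuting subalgebras `A, H 0, …, H (l-1)` generate `End V` and `S`
moves `H (j+1)` to `H j`, the twisted trace does not vanish on `A · H 0`. -/
theorem exists_pair616 [Nontrivial V] (l : ℕ) (hl : 0 < l)
    (A : Subalgebra ℂ (Module.End ℂ V)) (H : ℕ → Subalgebra ℂ (Module.End ℂ V))
    (S Sinv : Module.End ℂ V) (hS : S * Sinv = 1) (hS' : Sinv * S = 1)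
    (hAH : ∀ j < l, ∀ a ∈ A, ∀ h ∈ H j, a * h = h * a)
    (hHH : ∀ i < l, ∀ j < l, i ≠ j → ∀ h ∈ H i, ∀ h' ∈ H j, h * h' = h' * h)
    (hdown : ∀ j, j + 1 < l → ∀ h ∈ H (j + 1), Sinv * h * S ∈ H j)
    (hgen : Algebra.adjoin ℂ ((A : Set (Module.End ℂ V)) ∪
      ⋃ j ∈ Finset.range l, (H j : Set (Module.End ℂ V))) = ⊤) :
    ∃ a ∈ A, ∃ h ∈ H 0, LinearMap.trace ℂ V (a * h * S) ≠ 0 := by
  by_contra hcon
  push Not at hcon
  have h0 : ∀ a ∈ A, ∀ h ∈ H 0, twTr616 S (a * h) = 0 := fun a ha h hh => hcon a ha h hh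
  have g := chainGood616 l A H S Sinv hS hAH hHH hdown (twTr616 S) (twTr616_apply S) h0
    (l - 1) (by omega)
  let W : Subalgebra ℂ (Module.End ℂ V) :=
    Submodule.toSubalgebra (chain616 A H (l - 1)) g.one_mem (fun x y hx hy => g.mul_mem x hx y hy)
  have hle : Algebra.adjoin ℂ ((A : Set (Module.End ℂ V)) ∪
      ⋃ j ∈ Finset.range l, (H j : Set (Module.End ℂ V))) ≤ W := by
    apply Algebra.adjoin_le
    rintro x (hx | hx)
    · exact g.A_le x hx
    · simp only [Set.mem_iUnion, Finset.mem_range] at hx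
      obtain ⟨j, hj, hxj⟩ := hx
      exact g.H_le j (by omega) x hxj
  have hmem : Sinv ∈ W := hle (by rw [hgen]; exact Algebra.mem_top)
  have hz : twTr616 S Sinv = 0 := g.vanish Sinv hmem
  rw [twTr616_apply, hS', LinearMap.trace_one] at hz
  have : (Module.finrank ℂ V : ℂ) ≠ 0 := by
    have : 0 < Module.finrank ℂ V := Module.finrank_pos
    exact_mod_cast this.ne'
  exact this hz

omit [FiniteDimensional ℂ V] in
theorem pow_inv_mul_pow616 (S Sinv : Module.End ℂ V) (hS' : Sinv * S = 1) (k : ℕ) :
    Sinv ^ k * S ^ k = 1 := by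
  induction k with
  | zero => simp
  | succ k ih =>
    calc Sinv ^ (k + 1) * S ^ (k + 1) = Sinv ^ k * (Sinv * S) * S ^ k := by
          rw [pow_succ, pow_succ']; simp only [mul_assoc]
      _ = 1 := by rw [hS', mul_one, ih]

omit [FiniteDimensional ℂ V] in
/-- **Step 2.**  For `a ∈ A` the functional `h ↦ tr(a h S)` is a trace functional on `H 0`. -/
theorem twisted_traceFn616 (l : ℕ) (hl : 0 < l)
    (A : Subalgebra ℂ (Module.End ℂ V)) (H : ℕ → Subalgebra ℂ (Module.End ℂ V))
    (S Sinv : Module.End ℂ V) (hS : S * Sinv = 1) (hS' : Sinv * S = 1)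
    (hAH : ∀ j < l, ∀ a ∈ A, ∀ h ∈ H j, a * h = h * a)
    (hHH : ∀ i < l, ∀ j < l, i ≠ j → ∀ h ∈ H i, ∀ h' ∈ H j, h * h' = h' * h)
    (hdown : ∀ j, j + 1 < l → ∀ h ∈ H (j + 1), Sinv * h * S ∈ H j)
    (hwrap : ∀ h ∈ H 0, Sinv * h * S ∈ H (l - 1))
    (hcent : ∀ h ∈ H 0, S ^ l * h = h * S ^ l)
    (a : Module.End ℂ V) (ha : a ∈ A) (h h' : Module.End ℂ V) (hh : h ∈ H 0) (hh' : h' ∈ H 0) :
    LinearMap.trace ℂ V (a * (h * h') * S) = LinearMap.trace ℂ V (a * (h' * h) * S) := by
  -- the conjugates of `h'`
  obtain ⟨c, hc⟩ : ∃ c : ℕ → Module.End ℂ V, ∀ k, c k = Sinv ^ k * h' * S ^ k :=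
    ⟨fun k => Sinv ^ k * h' * S ^ k, fun _ => rfl⟩
  have hc0 : c 0 = h' := by rw [hc]; simp
  have hcs : ∀ k, c (k + 1) = Sinv * c k * S := by
    intro k
    rw [hc, hc, pow_succ', pow_succ]
    simp only [mul_assoc]
  have hcl : c l = h' := by
    rw [hc, mul_assoc, ← hcent h' hh', ← mul_assoc, pow_inv_mul_pow616 S Sinv hS', one_mul]
  have hmem : ∀ k, 1 ≤ k → k ≤ l → c k ∈ H (l - k) := by
    intro k
    induction k with
    | zero => intro h1; omega
    | succ k ih =>
      intro _ hkl
      rw [hcs]
      rcases Nat.eq_zero_or_pos k with hk0 | hkpos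
      · subst hk0
        rw [hc0]
        simpa using hwrap h' hh'
      · have := ih hkpos (by omega)
        have hidx : l - k = (l - (k + 1)) + 1 := by omega
        rw [hidx] at this
        exact hdown (l - (k + 1)) (by omega) _ this
  -- the chain of equalities
  have hstep : ∀ k, k + 1 < l →
      LinearMap.trace ℂ V (a * h * c k * S) = LinearMap.trace ℂ V (a * h * c (k + 1) * S) := by
    intro k hk
    rw [trace_move616 S Sinv hS (a * h) (c k), ← hcs]
    have hm := hmem (k + 1) (by omega) (by omega)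
    have h1 : c (k + 1) * a = a * c (k + 1) := (hAH (l - (k + 1)) (by omega) a ha _ hm).symm
    have h2 : c (k + 1) * h = h * c (k + 1) :=
      hHH (l - (k + 1)) (by omega) 0 hl (by omega) _ hm h hh
    have h3 : c (k + 1) * (a * h) = a * h * c (k + 1) := by
      calc c (k + 1) * (a * h) = (c (k + 1) * a) * h := by rw [mul_assoc]
        _ = a * (c (k + 1) * h) := by rw [h1, mul_assoc]
        _ = a * h * c (k + 1) := by rw [h2, mul_assoc]
    rw [h3]
  have hchain : ∀ k, k < l →
      LinearMap.trace ℂ V (a * h * c 0 * S) = LinearMap.trace ℂ V (a * h * c k * S) := by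
    intro k
    induction k with
    | zero => intro _; rfl
    | succ k ih =>
      intro hk
      rw [ih (by omega), hstep k hk]
  have hlast : LinearMap.trace ℂ V (a * h * c (l - 1) * S)
      = LinearMap.trace ℂ V (a * (h' * h) * S) := by
    rw [trace_move616 S Sinv hS (a * h) (c (l - 1)), ← hcs]
    have : l - 1 + 1 = l := by omega
    rw [this, hcl]
    have h3 : h' * (a * h) = a * (h' * h) := by
      calc h' * (a * h) = (h' * a) * h := by rw [mul_assoc]
        _ = a * (h' * h) := by rw [← hAH 0 hl a ha h' hh', mul_assoc]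
    rw [h3]
  calc LinearMap.trace ℂ V (a * (h * h') * S)
      = LinearMap.trace ℂ V (a * h * c 0 * S) := by rw [hc0, mul_assoc a h h']
    _ = LinearMap.trace ℂ V (a * h * c (l - 1) * S) := hchain (l - 1) (by omega)
    _ = LinearMap.trace ℂ V (a * (h' * h) * S) := hlast

end Part6

section Part7

variable {V : Type*} [AddCommGroup V] [Module ℂ V] [FiniteDimensional ℂ V]

omit [FiniteDimensional ℂ V] in
/-- A subspace which is invariant under all endomorphisms is trivial. -/
theorem eq_bot_or_top_of_invariant616 (Z : Submodule ℂ V)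
    (hZ : ∀ f : Module.End ℂ V, Z ≤ Z.comap f) : Z = ⊥ ∨ Z = ⊤ := by
  by_cases h0 : Z = ⊥
  · exact Or.inl h0
  · right
    obtain ⟨v, hvZ, hv0⟩ := (Submodule.ne_bot_iff Z).1 h0
    obtain ⟨φ, hφ⟩ := LinearMap.exists_leftInverse_of_injective
      (LinearMap.toSpanSingleton ℂ V v) (LinearMap.ker_toSpanSingleton ℂ hv0)
    have hφv : φ v = 1 := by
      have := congrArg (fun f : ℂ →ₗ[ℂ] ℂ => f 1) hφ
      simpa using this
    rw [eq_top_iff]
    intro w _
    have := hZ (φ.smulRight w) hvZ
    simpa [hφv] using this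

/-- **THE STRUCTURE OF THE TWISTED TRACE.**  `A, H 0, …, H (l-1)` pairwise commuting subalgebras
of `End V` which together generate `End V`; `S` invertible with `S⁻¹ (H (j+1)) S ⊆ H j`,
`S⁻¹ (H 0) S ⊆ H (l-1)`, `S ^ l` commuting with `H 0`.  Then there is `a ∈ A` with
`tr(a S) ≠ 0` and, for EVERY `a ∈ A` and `h ∈ H 0`,
`tr(a h S) · dim V = tr(a S) · tr(h)`. -/
theorem twisted_trace_formula616 [Nontrivial V] (l : ℕ) (hl : 0 < l)
    (A : Subalgebra ℂ (Module.End ℂ V)) (H : ℕ → Subalgebra ℂ (Module.End ℂ V))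
    (S Sinv : Module.End ℂ V) (hS : S * Sinv = 1) (hS' : Sinv * S = 1)
    (hAH : ∀ j < l, ∀ a ∈ A, ∀ h ∈ H j, a * h = h * a)
    (hHH : ∀ i < l, ∀ j < l, i ≠ j → ∀ h ∈ H i, ∀ h' ∈ H j, h * h' = h' * h)
    (hdown : ∀ j, j + 1 < l → ∀ h ∈ H (j + 1), Sinv * h * S ∈ H j)
    (hwrap : ∀ h ∈ H 0, Sinv * h * S ∈ H (l - 1))
    (hcent : ∀ h ∈ H 0, S ^ l * h = h * S ^ l)
    (hgen : Algebra.adjoin ℂ ((A : Set (Module.End ℂ V)) ∪
      ⋃ j ∈ Finset.range l, (H j : Set (Module.End ℂ V))) = ⊤) :
    (∃ a ∈ A, LinearMap.trace ℂ V (a * S) ≠ 0) ∧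
      ∀ a ∈ A, ∀ h ∈ H 0,
        LinearMap.trace ℂ V (a * h * S) * (Module.finrank ℂ V : ℂ)
          = LinearMap.trace ℂ V (a * S) * LinearMap.trace ℂ V h := by
  -- the commutant side
  let C : Subalgebra ℂ (Module.End ℂ V) :=
    Algebra.adjoin ℂ ((A : Set (Module.End ℂ V)) ∪
      ⋃ j ∈ (Finset.range l).filter (fun j => j ≠ 0), (H j : Set (Module.End ℂ V)))
  have hcomm : ∀ h ∈ H 0, ∀ c ∈ C, h * c = c * h := by
    have hle : C ≤ Subalgebra.centralizer ℂ ((H 0 : Set (Module.End ℂ V))) := by
      apply Algebra.adjoin_le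
      rintro x (hx | hx)
      · rw [SetLike.mem_coe, Subalgebra.mem_centralizer_iff]
        intro g hg
        exact (hAH 0 hl x hx g hg).symm
      · simp only [Set.mem_iUnion, Finset.mem_filter, Finset.mem_range] at hx
        obtain ⟨j, ⟨hj, hj0⟩, hxj⟩ := hx
        rw [SetLike.mem_coe, Subalgebra.mem_centralizer_iff]
        intro g hg
        exact hHH 0 hl j hj (fun h => hj0 h.symm) g hg x hxj
    intro h hh c hc
    exact (Subalgebra.mem_centralizer_iff ℂ).1 (hle hc) h hh
  have hirr : ∀ Z : Submodule ℂ V, (∀ x ∈ H 0, Z ≤ Z.comap x) → (∀ x ∈ C, Z ≤ Z.comap x) →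
      Z = ⊥ ∨ Z = ⊤ := by
    intro Z hZH hZC
    apply eq_bot_or_top_of_invariant616
    have hall : ∀ x ∈ Algebra.adjoin ℂ ((A : Set (Module.End ℂ V)) ∪
        ⋃ j ∈ Finset.range l, (H j : Set (Module.End ℂ V))), Z ≤ Z.comap x := by
      intro x hx
      induction hx using Algebra.adjoin_induction with
      | mem x hx =>
        rcases hx with hx | hx
        · exact hZC x (Algebra.subset_adjoin (Or.inl hx))
        · simp only [Set.mem_iUnion, Finset.mem_range] at hx
          obtain ⟨j, hj, hxj⟩ := hx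
          by_cases hj0 : j = 0
          · subst hj0
            exact hZH x hxj
          · refine hZC x (Algebra.subset_adjoin (Or.inr ?_))
            simp only [Set.mem_iUnion, Finset.mem_filter, Finset.mem_range]
            exact ⟨j, ⟨hj, hj0⟩, hxj⟩
      | algebraMap r =>
        intro v hv
        change (algebraMap ℂ (Module.End ℂ V) r) v ∈ Z
        rw [Module.algebraMap_end_apply]
        exact Z.smul_mem r hv
      | add x y _ _ hx hy =>
        intro v hv
        change (x + y) v ∈ Z
        rw [LinearMap.add_apply]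
        exact Z.add_mem (hx hv) (hy hv)
      | mul x y _ _ hx hy =>
        intro v hv
        change (x * y) v ∈ Z
        rw [Module.End.mul_apply]
        exact hx (hy hv)
    intro f
    exact hall f (by rw [hgen]; exact Algebra.mem_top)
  -- the formula
  have hformula : ∀ a ∈ A, ∀ h ∈ H 0,
      LinearMap.trace ℂ V (a * h * S) * (Module.finrank ℂ V : ℂ)
        = LinearMap.trace ℂ V (a * S) * LinearMap.trace ℂ V h := by
    intro a ha h hh
    let G : Module.End ℂ V →ₗ[ℂ] ℂ := (twTr616 S) ∘ₗ (LinearMap.mulLeft ℂ a)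
    have hGa : ∀ x, G x = LinearMap.trace ℂ V (a * x * S) := fun x => rfl
    have hG : ∀ h ∈ H 0, ∀ h' ∈ H 0, G (h * h') = G (h' * h) := by
      intro h hh h' hh'
      rw [hGa, hGa]
      exact twisted_traceFn616 l hl A H S Sinv hS hS' hAH hHH hdown hwrap hcent a ha h h' hh hh'
    have := traceFn_of_commuting616 (H 0) C hcomm hirr G hG h hh
    rw [hGa, hGa, mul_one] at this
    exact this
  refine ⟨?_, hformula⟩
  obtain ⟨a, ha, h, hh, hne⟩ := exists_pair616 l hl A H S Sinv hS hS' hAH hHH hdown hgen
  refine ⟨a, ha, ?_⟩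
  intro h0
  have := hformula a ha h hh
  rw [h0, zero_mul] at this
  have hn : (Module.finrank ℂ V : ℂ) ≠ 0 := by
    have : 0 < Module.finrank ℂ V := Module.finrank_pos
    exact_mod_cast this.ne'
  rcases mul_eq_zero.1 this with h1 | h1
  · exact hne h1
  · exact hn h1

/-- **NON-VANISHING OF THE TWISTED TRACE ON REGULAR OPERATORS.**  In the situation of
`twisted_trace_formula616`, let `b ∈ H 0` be injective.  Then there is `a ∈ A` such that for
every `m₀` there is `m ≥ m₀` with `tr(a bᵐ S) ≠ 0`. -/
theorem exists_regular_twisted_trace_ne_zero616 [Nontrivial V] (l : ℕ) (hl : 0 < l)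
    (A : Subalgebra ℂ (Module.End ℂ V)) (H : ℕ → Subalgebra ℂ (Module.End ℂ V))
    (S Sinv : Module.End ℂ V) (hS : S * Sinv = 1) (hS' : Sinv * S = 1)
    (hAH : ∀ j < l, ∀ a ∈ A, ∀ h ∈ H j, a * h = h * a)
    (hHH : ∀ i < l, ∀ j < l, i ≠ j → ∀ h ∈ H i, ∀ h' ∈ H j, h * h' = h' * h)
    (hdown : ∀ j, j + 1 < l → ∀ h ∈ H (j + 1), Sinv * h * S ∈ H j)
    (hwrap : ∀ h ∈ H 0, Sinv * h * S ∈ H (l - 1))
    (hcent : ∀ h ∈ H 0, S ^ l * h = h * S ^ l)
    (hgen : Algebra.adjoin ℂ ((A : Set (Module.End ℂ V)) ∪
      ⋃ j ∈ Finset.range l, (H j : Set (Module.End ℂ V))) = ⊤)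
    (b : Module.End ℂ V) (hb : b ∈ H 0) (hbinj : Function.Injective b) :
    ∃ a ∈ A, ∀ m₀ : ℕ, ∃ m, m₀ ≤ m ∧ LinearMap.trace ℂ V (a * b ^ m * S) ≠ 0 := by
  obtain ⟨⟨a, ha, hne⟩, hformula⟩ :=
    twisted_trace_formula616 l hl A H S Sinv hS hS' hAH hHH hdown hwrap hcent hgen
  refine ⟨a, ha, fun m₀ => ?_⟩
  obtain ⟨m, hm, hbm⟩ := exists_trace_pow_ne_zero616 b hbinj m₀
  refine ⟨m, hm, ?_⟩
  intro h0
  have := hformula a ha (b ^ m) ((H 0).pow_mem hb m)
  rw [h0, zero_mul] at this
  rcases mul_eq_zero.1 this.symm with h1 | h1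
  · exact hne h1
  · exact hbm h1

end Part7

end Fermat.Agent.LT.T7.H616
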