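import Mathlib
import Fermat.Agent.LT.T7.H616.RegTrace

/-!
# Row LT, tower T7, step C5: REG-TRACE, second file (helper616, OFF-MAIN asset, ADDITIVE)

`RegTrace.lean` (sha256 90e2b4689a998bfe) is unchanged.  Abstract linear algebra only.

## Why

`RegTrace.lean` is written for the class space at IWAHORI level at the places `o j` over the
regular place `u`.  The test functions of `T5` are bi-invariant under the PRINCIPAL level group
`U(𝔫)` at every place, the regular test function is `ρ_m = 1_{I t^m I}` at `o 0` and the Iwahori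
idempotent `e_I` at `o j`, `0 < j < l`.  On the class space `V` at level `U(𝔫)` the operator
`R(ρ_1)` is NOT injective (it kills the vectors without Iwahori-invariants) and the operators at
the other places of the orbit are idempotents, not `1`.  This file gives the statements in that
form, so that the consumer does not have to construct the subspace of Iwahori-invariants.

## Results (setting of `twisted_trace_formula616`: `A`, `H 0, …, H (l-1)` pairwise commuting
## subalgebras of `End V` generating `End V`, `S⁻¹ (H (j+1)) S ⊆ H j`, `c x = S⁻¹ x S`)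

* `exists_trace_pow_ne_zero_of_not_isNilpotent616`: the power traces of a NON-NILPOTENT operator
  do not all vanish from some exponent on (Fitting decomposition + the injective case).
* `twisted_trace_orbit616` (THE ORBIT FORMULA): for `a ∈ A`, `h j ∈ H j` (`j < l`)

      tr(a (h 0 ⋯ h (l-1)) S) · dim V = tr(a S) · tr(c^{l-1}(h (l-1)) ⋯ c(h 1) h 0).

  (`orbL616 h l = h 0 * ⋯ * h (l-1)`, `orbR616 S Sinv h l` = the product on the right;
  `orbL616_eq_list_prod`, `orbR616_eq_list_prod`, `orbL616_two`, `orbL616_three`.)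
* `twisted_trace_idem616`: if `e j ∈ H j` with `S⁻¹ (e (j+1)) S = e j` (Iwahori idempotents along
  the orbit) and `b ∈ H 0` with `e 0 * b = b`, then for `a ∈ A`, `m ≥ 1`

      tr(a (bᵐ e 1 ⋯ e (l-1)) S) · dim V = tr(a S) · tr(bᵐ).

* `exists_regular_twisted_trace_ne_zero_idem616`: if moreover `b` is not nilpotent, there is
  `a ∈ A` such that for every `m₀` some `m ≥ m₀` has `tr(a (bᵐ e 1 ⋯ e (l-1)) S) ≠ 0`.
* `trace_pow_eq_finsum616`: `tr(bᵐ) = ∑_μ dim(V_μ(b)) μᵐ` (generalised eigenspaces; no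
  polynomial factors in `m`), and `twisted_trace_atoms616`:

      tr(a (bᵐ e 1 ⋯ e (l-1)) S) · dim V = tr(a S) · ∑_μ dim(V_μ(b)) μᵐ.

  So the atoms at the regular place of a SIMPLE class space are the non-zero eigenvalues of `b`
  on `V`, each with coefficient `tr(a S) dim(V_μ(b)) / dim V`: the coefficients of the atoms of
  one class all have the same phase, the total mass of the class at ANY of its points `(b₀, μ)`
  is non-zero as soon as `tr(a S) ≠ 0` (which `twisted_trace_formula616` provides).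
-/

set_option autoImplicit false

open Module

namespace Fermat.Agent.LT.T7.H616

section Fitting

variable {V : Type*} [AddCommGroup V] [Module ℂ V] [FiniteDimensional ℂ V]

/-- The trace on a complemented pair of invariant subspaces. -/
theorem trace_eq_add_of_isCompl616 (K W : Submodule ℂ V) (hc : IsCompl K W)
    (f : Module.End ℂ V) (hK : Set.MapsTo f K K) (hW : Set.MapsTo f W W) :
    LinearMap.trace ℂ V f
      = LinearMap.trace ℂ K (f.restrict hK) + LinearMap.trace ℂ W (f.restrict hW) := by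
  classical
  let N : Bool → Submodule ℂ V := fun i => cond i K W
  have hint : DirectSum.IsInternal N := by
    rw [DirectSum.isInternal_submodule_iff_isCompl N (i := true) (j := false) (by simp)
      (by ext i; cases i <;> simp)]
    exact hc
  have hf : ∀ i, Set.MapsTo f (N i) (N i) := by
    intro i
    cases i
    · exact hW
    · exact hK
  have h1 : ∀ i, Module.Finite ℂ (N i) := fun i => inferInstance
  have h2 : ∀ i, Module.Free ℂ (N i) := fun i => inferInstance
  rw [LinearMap.trace_eq_sum_trace_restrict hint hf, Fintype.sum_bool]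
  rfl

/-- **The power traces of a non-nilpotent operator** do not all vanish from some exponent on. -/
theorem exists_trace_pow_ne_zero_of_not_isNilpotent616 (b : Module.End ℂ V)
    (hb : ¬ IsNilpotent b) (m₀ : ℕ) :
    ∃ m, m₀ ≤ m ∧ LinearMap.trace ℂ V (b ^ m) ≠ 0 := by
  obtain ⟨n₀, hn⟩ := Filter.eventually_atTop.1 b.eventually_isCompl_ker_pow_range_pow
  set n := n₀ + 1 with hn_def
  have hc : IsCompl (LinearMap.ker (b ^ n)) (LinearMap.range (b ^ n)) := hn n (by omega)
  have hcomm : ∀ x : V, (b ^ n) (b x) = b ((b ^ n) x) := by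
    intro x
    rw [← Module.End.mul_apply, ← Module.End.mul_apply, ← pow_succ, ← pow_succ']
  -- invariance under `b`
  have hK1 : ∀ x ∈ LinearMap.ker (b ^ n), b x ∈ LinearMap.ker (b ^ n) := by
    intro x hx
    rw [LinearMap.mem_ker] at hx ⊢
    rw [hcomm, hx, map_zero]
  have hW1 : ∀ x ∈ LinearMap.range (b ^ n), b x ∈ LinearMap.range (b ^ n) := by
    rintro x ⟨y, rfl⟩
    exact ⟨b y, hcomm y⟩
  -- the nilpotent part
  have hbK : (b.restrict hK1) ^ n = 0 := by
    rw [Module.End.pow_restrict]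
    ext ⟨x, hx⟩
    simpa using hx
  -- the injective part
  have hbW : Function.Injective (b.restrict hW1) := by
    rw [injective_iff_map_eq_zero]
    rintro ⟨x, hx⟩ h0
    have hbx : b x = 0 := congrArg Subtype.val h0
    have hxK : x ∈ LinearMap.ker (b ^ n) := by
      rw [LinearMap.mem_ker, hn_def, pow_succ, Module.End.mul_apply, hbx, map_zero]
    have hx0 : x ∈ (LinearMap.ker (b ^ n) ⊓ LinearMap.range (b ^ n) : Submodule ℂ V) :=
      ⟨hxK, hx⟩
    rw [hc.inf_eq_bot, Submodule.mem_bot] at hx0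
    exact Subtype.ext hx0
  have hnt : Nontrivial (LinearMap.range (b ^ n)) := by
    have hne : b ^ n ≠ 0 := fun h => hb ⟨n, h⟩
    obtain ⟨y, hy⟩ : ∃ y, (b ^ n) y ≠ 0 := by
      by_contra hcon
      push Not at hcon
      exact hne (LinearMap.ext hcon)
    exact ⟨⟨⟨(b ^ n) y, ⟨y, rfl⟩⟩, 0, fun h => hy (congrArg Subtype.val h)⟩⟩
  obtain ⟨m, hm, htr⟩ := exists_trace_pow_ne_zero616 (b.restrict hW1) hbW (max m₀ 1)
  refine ⟨m, le_trans (le_max_left _ _) hm, ?_⟩
  have hm1 : 1 ≤ m := le_trans (le_max_right _ _) hm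
  rw [trace_eq_add_of_isCompl616 _ _ hc (b ^ m)
    (fun x hx => Module.End.pow_apply_mem_of_forall_mem m hK1 x hx)
    (fun x hx => Module.End.pow_apply_mem_of_forall_mem m hW1 x hx)]
  rw [← Module.End.pow_restrict m hK1, ← Module.End.pow_restrict m hW1]
  have hnil : IsNilpotent ((b.restrict hK1) ^ m) := by
    refine ⟨n, ?_⟩
    rw [← pow_mul, mul_comm, pow_mul, hbK, zero_pow (by omega)]
  have h0 : LinearMap.trace ℂ _ ((b.restrict hK1) ^ m) = 0 :=
    (LinearMap.isNilpotent_trace_of_isNilpotent hnil).eq_zero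
  rw [h0, zero_add]
  exact htr

end Fitting

section Orbit

variable {V : Type*} [AddCommGroup V] [Module ℂ V]

/-- `h 0 * h 1 * ⋯ * h (n-1)`. -/
def orbL616 (h : ℕ → Module.End ℂ V) : ℕ → Module.End ℂ V
  | 0 => 1
  | n + 1 => orbL616 h n * h n

/-- `c^{n-1}(h (n-1)) * ⋯ * c(h 1) * h 0` with `c x = Sinv * x * S`. -/
def orbR616 (S Sinv : Module.End ℂ V) (h : ℕ → Module.End ℂ V) : ℕ → Module.End ℂ V
  | 0 => 1
  | n + 1 => (Sinv ^ n * h n * S ^ n) * orbR616 S Sinv h n

theorem orbL616_zero (h : ℕ → Module.End ℂ V) : orbL616 h 0 = 1 := rfl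

theorem orbL616_succ (h : ℕ → Module.End ℂ V) (n : ℕ) :
    orbL616 h (n + 1) = orbL616 h n * h n := rfl

theorem orbR616_zero (S Sinv : Module.End ℂ V) (h : ℕ → Module.End ℂ V) :
    orbR616 S Sinv h 0 = 1 := rfl

theorem orbR616_succ (S Sinv : Module.End ℂ V) (h : ℕ → Module.End ℂ V) (n : ℕ) :
    orbR616 S Sinv h (n + 1) = (Sinv ^ n * h n * S ^ n) * orbR616 S Sinv h n := rfl

/-- `orbL616` as a product over a list. -/
theorem orbL616_eq_list_prod (h : ℕ → Module.End ℂ V) (n : ℕ) :
    orbL616 h n = ((List.range n).map h).prod := by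
  induction n with
  | zero => simp [orbL616_zero]
  | succ n ih =>
    rw [orbL616_succ, ih, List.range_succ, List.map_append, List.prod_append]
    simp

/-- `orbR616` as a product over a list. -/
theorem orbR616_eq_list_prod (S Sinv : Module.End ℂ V) (h : ℕ → Module.End ℂ V) (n : ℕ) :
    orbR616 S Sinv h n
      = ((List.range n).reverse.map fun j => Sinv ^ j * h j * S ^ j).prod := by
  induction n with
  | zero => simp [orbR616_zero]
  | succ n ih =>
    rw [orbR616_succ, ih, List.range_succ, List.reverse_append]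
    simp

theorem orbL616_congr {h h' : ℕ → Module.End ℂ V} (n : ℕ) (hh : ∀ j < n, h j = h' j) :
    orbL616 h n = orbL616 h' n := by
  induction n with
  | zero => rfl
  | succ n ih =>
    rw [orbL616_succ, orbL616_succ, ih (fun j hj => hh j (by omega)), hh n (by omega)]

theorem orbR616_congr (S Sinv : Module.End ℂ V) {h h' : ℕ → Module.End ℂ V} (n : ℕ)
    (hh : ∀ j < n, h j = h' j) : orbR616 S Sinv h n = orbR616 S Sinv h' n := by
  induction n with
  | zero => rfl
  | succ n ih =>
    rw [orbR616_succ, orbR616_succ, ih (fun j hj => hh j (by omega)), hh n (by omega)]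

/-- `c^j` maps `H j` into `H 0`. -/
theorem conj_pow_mem616 (l : ℕ) (H : ℕ → Subalgebra ℂ (Module.End ℂ V))
    (S Sinv : Module.End ℂ V)
    (hdown : ∀ j, j + 1 < l → ∀ h ∈ H (j + 1), Sinv * h * S ∈ H j) :
    ∀ j, j < l → ∀ h ∈ H j, Sinv ^ j * h * S ^ j ∈ H 0 := by
  intro j
  induction j with
  | zero =>
    intro _ h hh
    simpa using hh
  | succ j ih =>
    intro hj h hh
    have e : Sinv ^ (j + 1) * h * S ^ (j + 1) = Sinv ^ j * (Sinv * h * S) * S ^ j := by
      rw [pow_succ, pow_succ']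
      simp only [mul_assoc]
    rw [e]
    exact ih (by omega) _ (hdown j hj h hh)

/-- `c^j` is multiplicative. -/
theorem conj_pow_mul616 (S Sinv : Module.End ℂ V) (hS : S * Sinv = 1) (j : ℕ)
    (x y : Module.End ℂ V) :
    Sinv ^ j * (x * y) * S ^ j = (Sinv ^ j * x * S ^ j) * (Sinv ^ j * y * S ^ j) := by
  have h1 : S ^ j * Sinv ^ j = 1 := pow_inv_mul_pow616 Sinv S hS j
  calc Sinv ^ j * (x * y) * S ^ j = Sinv ^ j * x * 1 * y * S ^ j := by
        simp only [mul_one, mul_assoc]
    _ = (Sinv ^ j * x * S ^ j) * (Sinv ^ j * y * S ^ j) := by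
        rw [← h1]
        simp only [mul_assoc]

/-- The product of the first `n` factors commutes with `H n`. -/
theorem orbL616_commute (l : ℕ) (H : ℕ → Subalgebra ℂ (Module.End ℂ V))
    (hHH : ∀ i < l, ∀ j < l, i ≠ j → ∀ h ∈ H i, ∀ h' ∈ H j, h * h' = h' * h)
    (i : ℕ) (hi : i < l) (k : Module.End ℂ V) (hk : k ∈ H i) (h : ℕ → Module.End ℂ V) :
    ∀ n, n ≤ i → (∀ j < n, h j ∈ H j) → k * orbL616 h n = orbL616 h n * k := by
  intro n
  induction n with
  | zero =>
    intro _ _
    rw [orbL616_zero, mul_one, one_mul]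
  | succ n ih =>
    intro hn hh
    have h1 := ih (by omega) (fun j hj => hh j (by omega))
    have h2 : k * h n = h n * k :=
      hHH i hi n (by omega) (by omega) k hk (h n) (hh n (by omega))
    rw [orbL616_succ, ← mul_assoc, h1, mul_assoc, h2, mul_assoc]

/-- The product `orbR616` lies in `H 0`. -/
theorem orbR616_mem (l : ℕ) (H : ℕ → Subalgebra ℂ (Module.End ℂ V))
    (S Sinv : Module.End ℂ V)
    (hdown : ∀ j, j + 1 < l → ∀ h ∈ H (j + 1), Sinv * h * S ∈ H j)
    (h : ℕ → Module.End ℂ V) :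
    ∀ n, n ≤ l → (∀ j < n, h j ∈ H j) → orbR616 S Sinv h n ∈ H 0 := by
  intro n
  induction n with
  | zero =>
    intro _ _
    rw [orbR616_zero]
    exact (H 0).one_mem
  | succ n ih =>
    intro hn hh
    rw [orbR616_succ]
    exact (H 0).mul_mem (conj_pow_mem616 l H S Sinv hdown n (by omega) (h n) (hh n (by omega)))
      (ih (by omega) (fun j hj => hh j (by omega)))

/-- **Moving the factors of the orbit to the place `o 0`.** -/
theorem twisted_trace_orbit_aux616 (l : ℕ)
    (A : Subalgebra ℂ (Module.End ℂ V)) (H : ℕ → Subalgebra ℂ (Module.End ℂ V))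
    (S Sinv : Module.End ℂ V) (hS : S * Sinv = 1)
    (hAH : ∀ j < l, ∀ a ∈ A, ∀ h ∈ H j, a * h = h * a)
    (hHH : ∀ i < l, ∀ j < l, i ≠ j → ∀ h ∈ H i, ∀ h' ∈ H j, h * h' = h' * h)
    (hdown : ∀ j, j + 1 < l → ∀ h ∈ H (j + 1), Sinv * h * S ∈ H j)
    (a : Module.End ℂ V) (ha : a ∈ A) :
    ∀ n, n + 1 ≤ l → ∀ h : ℕ → Module.End ℂ V, (∀ j ≤ n, h j ∈ H j) →
      LinearMap.trace ℂ V (a * orbL616 h (n + 1) * S)
        = LinearMap.trace ℂ V (a * orbR616 S Sinv h (n + 1) * S) := by
  intro n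
  induction n with
  | zero =>
    intro _ h _
    rw [orbL616_succ, orbL616_zero, orbR616_succ, orbR616_zero]
    simp
  | succ n ih =>
    intro hn h hh
    -- the moved factor
    set k : Module.End ℂ V := Sinv * h (n + 1) * S with hk
    have hkH : k ∈ H n := hdown n (by omega) (h (n + 1)) (hh (n + 1) le_rfl)
    have hka : a * k = k * a := hAH n (by omega) a ha k hkH
    have hkL : k * orbL616 h n = orbL616 h n * k :=
      orbL616_commute l H hHH n (by omega) k hkH h n le_rfl (fun j hj => hh j (by omega))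
    -- the new family
    set h' : ℕ → Module.End ℂ V := Function.update h n (k * h n) with hh'
    have hh'n : h' n = k * h n := by rw [hh', Function.update_self]
    have hh'j : ∀ j < n, h' j = h j := by
      intro j hj
      rw [hh', Function.update_of_ne (by omega)]
    have hh'mem : ∀ j ≤ n, h' j ∈ H j := by
      intro j hj
      rcases Nat.lt_or_ge j n with hjn | hjn
      · rw [hh'j j hjn]
        exact hh j (by omega)
      · have : j = n := by omega
        subst this
        rw [hh'n]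
        exact (H j).mul_mem hkH (hh j (by omega))
    have hL : orbL616 h' n = orbL616 h n := orbL616_congr n hh'j
    have hR : orbR616 S Sinv h' n = orbR616 S Sinv h n := orbR616_congr S Sinv n hh'j
    have e1 : a * orbL616 h (n + 1 + 1) * S = (a * orbL616 h n * h n) * h (n + 1) * S := by
      rw [orbL616_succ, orbL616_succ]
      simp only [mul_assoc]
    have e2 : k * (a * orbL616 h n * h n) * S = a * orbL616 h' (n + 1) * S := by
      rw [orbL616_succ, hL, hh'n]
      calc k * (a * orbL616 h n * h n) * S = (k * a) * orbL616 h n * h n * S := by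
            simp only [mul_assoc]
        _ = a * (k * orbL616 h n) * h n * S := by
            rw [← hka]
            simp only [mul_assoc]
        _ = a * (orbL616 h n * (k * h n)) * S := by
            rw [hkL]
            simp only [mul_assoc]
    have e3 : orbR616 S Sinv h' (n + 1) = orbR616 S Sinv h (n + 1 + 1) := by
      rw [orbR616_succ, orbR616_succ, orbR616_succ, hR, hh'n, conj_pow_mul616 S Sinv hS]
      have e4 : Sinv ^ n * k * S ^ n = Sinv ^ (n + 1) * h (n + 1) * S ^ (n + 1) := by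
        rw [hk, pow_succ, pow_succ']
        simp only [mul_assoc]
      rw [e4]
      simp only [mul_assoc]
    rw [e1, trace_move616 S Sinv hS, e2, ih (by omega) h' hh'mem, e3]

theorem orbL616_one (h : ℕ → Module.End ℂ V) : orbL616 h 1 = h 0 := by
  rw [orbL616_succ, orbL616_zero, one_mul]

theorem orbL616_two (h : ℕ → Module.End ℂ V) : orbL616 h 2 = h 0 * h 1 := by
  rw [orbL616_succ, orbL616_one]

theorem orbL616_three (h : ℕ → Module.End ℂ V) : orbL616 h 3 = h 0 * h 1 * h 2 := by
  rw [orbL616_succ, orbL616_two]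

end Orbit

section Main

variable {V : Type*} [AddCommGroup V] [Module ℂ V] [FiniteDimensional ℂ V]

/-- **THE ORBIT FORMULA.**  In the setting of `twisted_trace_formula616`: for `a ∈ A` and
`h j ∈ H j` (`j < l`),
`tr(a (h 0 ⋯ h (l-1)) S) · dim V = tr(a S) · tr(c^{l-1}(h (l-1)) ⋯ c(h 1) h 0)`,
`c x = S⁻¹ x S`. -/
theorem twisted_trace_orbit616 [Nontrivial V] (l : ℕ) (hl : 0 < l)
    (A : Subalgebra ℂ (Module.End ℂ V)) (H : ℕ → Subalgebra ℂ (Module.End ℂ V))
    (S Sinv : Module.End ℂ V) (hS : S * Sinv = 1) (hS' : Sinv * S = 1)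
    (hAH : ∀ j < l, ∀ a ∈ A, ∀ h ∈ H j, a * h = h * a)
    (hHH : ∀ i < l, ∀ j < l, i ≠ j → ∀ h ∈ H i, ∀ h' ∈ H j, h * h' = h' * h)
    (hdown : ∀ j, j + 1 < l → ∀ h ∈ H (j + 1), Sinv * h * S ∈ H j)
    (hwrap : ∀ h ∈ H 0, Sinv * h * S ∈ H (l - 1))
    (hcent : ∀ h ∈ H 0, S ^ l * h = h * S ^ l)
    (hgen : Algebra.adjoin ℂ ((A : Set (Module.End ℂ V)) ∪
      ⋃ j ∈ Finset.range l, (H j : Set (Module.End ℂ V))) = ⊤)
    (a : Module.End ℂ V) (ha : a ∈ A) (h : ℕ → Module.End ℂ V) (hh : ∀ j < l, h j ∈ H j) :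
    LinearMap.trace ℂ V (a * orbL616 h l * S) * (Module.finrank ℂ V : ℂ)
      = LinearMap.trace ℂ V (a * S) * LinearMap.trace ℂ V (orbR616 S Sinv h l) := by
  obtain ⟨n, rfl⟩ : ∃ n, l = n + 1 := ⟨l - 1, by omega⟩
  rw [twisted_trace_orbit_aux616 (n + 1) A H S Sinv hS hAH hHH hdown a ha n le_rfl h
    (fun j hj => hh j (by omega))]
  exact (twisted_trace_formula616 (n + 1) hl A H S Sinv hS hS' hAH hHH hdown hwrap hcent
    hgen).2 a ha _ (orbR616_mem (n + 1) H S Sinv hdown h (n + 1) le_rfl hh)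

/-- **THE REGULAR TEST FUNCTION AT PRINCIPAL LEVEL.**  In the setting of
`twisted_trace_formula616` let `e j ∈ H j` with `S⁻¹ (e (j+1)) S = e j` (the Iwahori idempotents
along the orbit) and `b ∈ H 0` with `e 0 * b = b` (`b = R(1_{I t I})`).  Then for `a ∈ A`, `m ≥ 1`
`tr(a (bᵐ e 1 ⋯ e (l-1)) S) · dim V = tr(a S) · tr(bᵐ)`. -/
theorem twisted_trace_idem616 [Nontrivial V] (l : ℕ) (hl : 0 < l)
    (A : Subalgebra ℂ (Module.End ℂ V)) (H : ℕ → Subalgebra ℂ (Module.End ℂ V))
    (S Sinv : Module.End ℂ V) (hS : S * Sinv = 1) (hS' : Sinv * S = 1)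
    (hAH : ∀ j < l, ∀ a ∈ A, ∀ h ∈ H j, a * h = h * a)
    (hHH : ∀ i < l, ∀ j < l, i ≠ j → ∀ h ∈ H i, ∀ h' ∈ H j, h * h' = h' * h)
    (hdown : ∀ j, j + 1 < l → ∀ h ∈ H (j + 1), Sinv * h * S ∈ H j)
    (hwrap : ∀ h ∈ H 0, Sinv * h * S ∈ H (l - 1))
    (hcent : ∀ h ∈ H 0, S ^ l * h = h * S ^ l)
    (hgen : Algebra.adjoin ℂ ((A : Set (Module.End ℂ V)) ∪
      ⋃ j ∈ Finset.range l, (H j : Set (Module.End ℂ V))) = ⊤)
    (e : ℕ → Module.End ℂ V) (he : ∀ j < l, e j ∈ H j)
    (hec : ∀ j, j + 1 < l → Sinv * e (j + 1) * S = e j)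
    (b : Module.End ℂ V) (hb : b ∈ H 0) (heb : e 0 * b = b)
    (a : Module.End ℂ V) (ha : a ∈ A) (m : ℕ) (hm1 : 1 ≤ m) :
    LinearMap.trace ℂ V (a * orbL616 (Function.update e 0 (b ^ m)) l * S)
        * (Module.finrank ℂ V : ℂ)
      = LinearMap.trace ℂ V (a * S) * LinearMap.trace ℂ V (b ^ m) := by
  set h : ℕ → Module.End ℂ V := Function.update e 0 (b ^ m) with hh
  have hh0 : h 0 = b ^ m := by rw [hh, Function.update_self]
  have hhj : ∀ j, j ≠ 0 → h j = e j := by
    intro j hj
    rw [hh, Function.update_of_ne hj]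
  have hmem : ∀ j < l, h j ∈ H j := by
    intro j hj
    rcases Nat.eq_zero_or_pos j with h0 | h0
    · subst h0
      rw [hh0]
      exact (H 0).pow_mem hb m
    · rw [hhj j (by omega)]
      exact he j hj
  -- the conjugates of the idempotents
  have hconj : ∀ j, j < l → Sinv ^ j * e j * S ^ j = e 0 := by
    intro j
    induction j with
    | zero =>
      intro _
      simp
    | succ j ih =>
      intro hj
      have e1 : Sinv ^ (j + 1) * e (j + 1) * S ^ (j + 1)
          = Sinv ^ j * (Sinv * e (j + 1) * S) * S ^ j := by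
        rw [pow_succ, pow_succ']
        simp only [mul_assoc]
      rw [e1, hec j hj]
      exact ih (by omega)
  have hebm : e 0 * b ^ m = b ^ m := by
    obtain ⟨m', rfl⟩ : ∃ m', m = m' + 1 := ⟨m - 1, by omega⟩
    rw [pow_succ', ← mul_assoc, heb]
  have hepow : ∀ n : ℕ, e 0 ^ n * b ^ m = b ^ m := by
    intro n
    induction n with
    | zero => simp
    | succ n ih => rw [pow_succ, mul_assoc, hebm, ih]
  have hR : ∀ n, n + 1 ≤ l → orbR616 S Sinv h (n + 1) = e 0 ^ n * b ^ m := by
    intro n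
    induction n with
    | zero =>
      intro _
      rw [orbR616_succ, orbR616_zero, hh0]
      simp
    | succ n ih =>
      intro hn
      rw [orbR616_succ, ih (by omega), hhj (n + 1) (by omega), hconj (n + 1) (by omega),
        ← mul_assoc, ← pow_succ']
  have hRl : orbR616 S Sinv h l = b ^ m := by
    obtain ⟨n, rfl⟩ : ∃ n, l = n + 1 := ⟨l - 1, by omega⟩
    rw [hR n le_rfl, hepow]
  have hformula := twisted_trace_orbit616 l hl A H S Sinv hS hS' hAH hHH hdown hwrap hcent
    hgen a ha h hmem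
  rw [hRl] at hformula
  exact hformula

/-- **NON-VANISHING FOR THE REGULAR TEST FUNCTION AT PRINCIPAL LEVEL.**  In the setting of
`twisted_trace_idem616`, if `b` is NOT NILPOTENT there is `a ∈ A` such that for every `m₀` some
`m ≥ m₀` has `tr(a (bᵐ e 1 ⋯ e (l-1)) S) ≠ 0`. -/
theorem exists_regular_twisted_trace_ne_zero_idem616 [Nontrivial V] (l : ℕ) (hl : 0 < l)
    (A : Subalgebra ℂ (Module.End ℂ V)) (H : ℕ → Subalgebra ℂ (Module.End ℂ V))
    (S Sinv : Module.End ℂ V) (hS : S * Sinv = 1) (hS' : Sinv * S = 1)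
    (hAH : ∀ j < l, ∀ a ∈ A, ∀ h ∈ H j, a * h = h * a)
    (hHH : ∀ i < l, ∀ j < l, i ≠ j → ∀ h ∈ H i, ∀ h' ∈ H j, h * h' = h' * h)
    (hdown : ∀ j, j + 1 < l → ∀ h ∈ H (j + 1), Sinv * h * S ∈ H j)
    (hwrap : ∀ h ∈ H 0, Sinv * h * S ∈ H (l - 1))
    (hcent : ∀ h ∈ H 0, S ^ l * h = h * S ^ l)
    (hgen : Algebra.adjoin ℂ ((A : Set (Module.End ℂ V)) ∪
      ⋃ j ∈ Finset.range l, (H j : Set (Module.End ℂ V))) = ⊤)
    (e : ℕ → Module.End ℂ V) (he : ∀ j < l, e j ∈ H j)
    (hec : ∀ j, j + 1 < l → Sinv * e (j + 1) * S = e j)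
    (b : Module.End ℂ V) (hb : b ∈ H 0) (heb : e 0 * b = b) (hbn : ¬ IsNilpotent b) :
    ∃ a ∈ A, ∀ m₀ : ℕ, ∃ m, m₀ ≤ m ∧
      LinearMap.trace ℂ V (a * orbL616 (Function.update e 0 (b ^ m)) l * S) ≠ 0 := by
  obtain ⟨⟨a, ha, hne⟩, -⟩ :=
    twisted_trace_formula616 l hl A H S Sinv hS hS' hAH hHH hdown hwrap hcent hgen
  refine ⟨a, ha, fun m₀ => ?_⟩
  obtain ⟨m, hm, hbm⟩ := exists_trace_pow_ne_zero_of_not_isNilpotent616 b hbn (max m₀ 1)
  have hm1 : 1 ≤ m := le_trans (le_max_right _ _) hm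
  refine ⟨m, le_trans (le_max_left _ _) hm, ?_⟩
  have hformula := twisted_trace_idem616 l hl A H S Sinv hS hS' hAH hHH hdown hwrap hcent
    hgen e he hec b hb heb a ha m hm1
  intro h0
  rw [h0, zero_mul] at hformula
  rcases mul_eq_zero.1 hformula.symm with h1 | h1
  · exact hne h1
  · exact hbm h1

end Main

section Atoms

variable {V : Type*} [AddCommGroup V] [Module ℂ V] [FiniteDimensional ℂ V]

/-- The trace of `b ^ m` on the generalised eigenspace of `b` for `μ`. -/
theorem trace_pow_restrict_maxGenEigenspace616 (b : Module.End ℂ V) (μ : ℂ) (m : ℕ)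
    (h : Set.MapsTo (b ^ m) (b.maxGenEigenspace μ) (b.maxGenEigenspace μ)) :
    LinearMap.trace ℂ (b.maxGenEigenspace μ) ((b ^ m).restrict h)
      = (Module.finrank ℂ (b.maxGenEigenspace μ) : ℂ) * μ ^ m := by
  have h1 : ∀ x ∈ b.maxGenEigenspace μ, b x ∈ b.maxGenEigenspace μ :=
    Module.End.mapsTo_maxGenEigenspace_of_comm (Commute.refl b) μ
  have e0 : (b ^ m).restrict h = (b.restrict h1) ^ m := (Module.End.pow_restrict m h1).symm
  rw [e0]
  have key : ∀ hx : Set.MapsTo (b - algebraMap ℂ (Module.End ℂ V) μ)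
      (b.maxGenEigenspace μ) (b.maxGenEigenspace μ),
      IsNilpotent ((b - algebraMap ℂ (Module.End ℂ V) μ).restrict hx) →
        IsNilpotent (b.restrict h1 - algebraMap ℂ _ μ) := by
    intro hx hn
    have e1 : b.restrict h1 - algebraMap ℂ (Module.End ℂ (b.maxGenEigenspace μ)) μ
        = (b - algebraMap ℂ (Module.End ℂ V) μ).restrict hx := by
      ext x
      simp only [LinearMap.sub_apply, Submodule.coe_sub, Module.algebraMap_end_apply,
        Submodule.coe_smul]
      rfl
    rw [e1]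
    exact hn
  have hnil : IsNilpotent (b.restrict h1 - algebraMap ℂ _ μ) :=
    key _ (b.isNilpotent_restrict_maxGenEigenspace_sub_algebraMap μ)
  induction m with
  | zero =>
    rw [pow_zero, pow_zero, mul_one, LinearMap.trace_one]
  | succ m ih =>
    have hm : Set.MapsTo (b ^ m) (b.maxGenEigenspace μ) (b.maxGenEigenspace μ) :=
      Module.End.mapsTo_maxGenEigenspace_of_comm (Commute.pow_right (Commute.refl b) m) μ
    have e2 : (b.restrict h1) ^ (m + 1) = ((b.restrict h1) ^ m) ∘ₗ (b.restrict h1) := by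
      rw [pow_succ, Module.End.mul_eq_comp]
    rw [e2, LinearMap.trace_comp_eq_mul_of_commute_of_isNilpotent μ
      (Commute.pow_left (Commute.refl _) m) hnil,
      ih hm (Module.End.pow_restrict m h1).symm, pow_succ]
    ring

/-- **The power traces are sums of exponentials without polynomial factors**:
`tr(b ^ m) = ∑_μ dim(generalised eigenspace of μ) · μ ^ m`. -/
theorem trace_pow_eq_finsum616 (b : Module.End ℂ V) (m : ℕ) :
    LinearMap.trace ℂ V (b ^ m)
      = ∑ᶠ μ : ℂ, (Module.finrank ℂ (b.maxGenEigenspace μ) : ℂ) * μ ^ m := by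
  classical
  have hds := DirectSum.isInternal_submodule_of_iSupIndep_of_iSup_eq_top
    b.independent_maxGenEigenspace b.iSup_maxGenEigenspace_eq_top
  have hfin : {μ | b.maxGenEigenspace μ ≠ ⊥}.Finite :=
    WellFoundedGT.finite_ne_bot_of_iSupIndep b.independent_maxGenEigenspace
  have hf : ∀ μ, Set.MapsTo (b ^ m) (b.maxGenEigenspace μ) (b.maxGenEigenspace μ) :=
    fun μ => Module.End.mapsTo_maxGenEigenspace_of_comm (Commute.pow_right (Commute.refl b) m) μ
  rw [LinearMap.trace_eq_sum_trace_restrict' hds hfin hf]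
  rw [finsum_eq_sum_of_support_subset (s := hfin.toFinset)]
  · exact Finset.sum_congr rfl fun μ _ => trace_pow_restrict_maxGenEigenspace616 b μ m (hf μ)
  · intro μ hμ
    rw [Function.mem_support] at hμ
    rw [Set.Finite.coe_toFinset]
    show b.maxGenEigenspace μ ≠ ⊥
    intro hbot
    apply hμ
    rw [hbot, finrank_bot]
    simp

/-- **THE ATOMS OF THE CLASS SPACE AT THE REGULAR PLACE.**  In the setting of
`twisted_trace_idem616`: for `a ∈ A` and `m ≥ 1`

    tr(a (bᵐ e 1 ⋯ e (l-1)) S) · dim V = tr(a S) · ∑_μ dim(V_μ(b)) · μᵐ,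

`V_μ(b)` the generalised eigenspace of `b` on `V`: the atoms at the regular place of a SIMPLE
class space are the non-zero eigenvalues `μ` of `b`, without polynomial factors in `m`, and all
of them carry the SAME twisted trace `tr(a S)` away from the orbit, weighted by the positive
integers `dim V_μ(b)`; no cancellation between the atoms of one class is possible. -/
theorem twisted_trace_atoms616 [Nontrivial V] (l : ℕ) (hl : 0 < l)
    (A : Subalgebra ℂ (Module.End ℂ V)) (H : ℕ → Subalgebra ℂ (Module.End ℂ V))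
    (S Sinv : Module.End ℂ V) (hS : S * Sinv = 1) (hS' : Sinv * S = 1)
    (hAH : ∀ j < l, ∀ a ∈ A, ∀ h ∈ H j, a * h = h * a)
    (hHH : ∀ i < l, ∀ j < l, i ≠ j → ∀ h ∈ H i, ∀ h' ∈ H j, h * h' = h' * h)
    (hdown : ∀ j, j + 1 < l → ∀ h ∈ H (j + 1), Sinv * h * S ∈ H j)
    (hwrap : ∀ h ∈ H 0, Sinv * h * S ∈ H (l - 1))
    (hcent : ∀ h ∈ H 0, S ^ l * h = h * S ^ l)
    (hgen : Algebra.adjoin ℂ ((A : Set (Module.End ℂ V)) ∪
      ⋃ j ∈ Finset.range l, (H j : Set (Module.End ℂ V))) = ⊤)
    (e : ℕ → Module.End ℂ V) (he : ∀ j < l, e j ∈ H j)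
    (hec : ∀ j, j + 1 < l → Sinv * e (j + 1) * S = e j)
    (b : Module.End ℂ V) (hb : b ∈ H 0) (heb : e 0 * b = b)
    (a : Module.End ℂ V) (ha : a ∈ A) (m : ℕ) (hm1 : 1 ≤ m) :
    LinearMap.trace ℂ V (a * orbL616 (Function.update e 0 (b ^ m)) l * S)
        * (Module.finrank ℂ V : ℂ)
      = LinearMap.trace ℂ V (a * S)
        * ∑ᶠ μ : ℂ, (Module.finrank ℂ (b.maxGenEigenspace μ) : ℂ) * μ ^ m := by
  rw [twisted_trace_idem616 l hl A H S Sinv hS hS' hAH hHH hdown hwrap hcent hgen e he hec b hb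
    heb a ha m hm1, trace_pow_eq_finsum616]

end Atoms

end Fermat.Agent.LT.T7.H616
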