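import Mathlib
import Fermat.Agent.S29.H872.Burnside
import Fermat.Agent.LT.T7.H616.RegTrace
import Fermat.Agent.LT.T7.H616.RegTrace2

/-!
# Row LT, tower T7, node T7.L2.2 SPEC-UP: THE CLASS OF `Φ` (helper616, OFF-MAIN asset, ADDITIVE)

Consumer form of `RegTrace.lean` / `RegTrace2.lean` in the vocabulary of `T7/Level2.lean`
(helper797@819237e8b): SETS of operators and SIMPLICITY of the class space.  Abstract linear
algebra only (Mathlib + main `S29/H872/Burnside` + `RegTrace`, `RegTrace2`).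

## Dictionary (OP-up of `IsL2Data`)

`V` = the class space of `Φ`: the span of the invariant eigenfunctions `ψ` (`IsEigFn 𝔑₀ r ℓ o ψ C`,
`C` agreeing with `eigOf Φ` outside `S'`); finite-dimensional, non-zero.
`𝒢` = the operators `cosetOp Hg` on `V`, `g` BAD (`IsDblCosetSystem 𝔑₀ g Hg`);
`ℐ j` = the Iwahori coset operators at the place `o j` on `V`;
`S = R(σ)`, `Sinv = R(σ⁻¹)`; `𝒰 = iwOp (o 0) H` (`∈ ℐ 0` up to the scalar `q^{-1/2}`), `Z` = the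
translation by the scalar uniformiser at `o 0`.
The operator of OP-up is `[U g U] Zᵏ 𝒰ᵐ = g * (Zᵏ * 𝒰ᵐ)`, its diagonal coefficients against
`R(σ)` sum to `tr(g * (Zᵏ * 𝒰ᵐ) * S)` on `V`.

## Hypotheses

* `hGI`, `hII`: operators at different places commute (generators only);
* `hdown`, `hwrap`: `S⁻¹ (ℐ (j+1)) S ⊆ adjoin (ℐ j)`, `S⁻¹ (ℐ 0) S ⊆ adjoin (ℐ (l-1))`
  (`R(σ)⁻¹ R(h) R(σ) = R(σ⁻¹ h)`, generators only); `hcent`: `S ^ l` commutes with `ℐ 0`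
  (`S ^ l = 1`);
* `hirr`: SIMPLICITY = multiplicity one in module form (helper963): a subspace of `V` stable
  under `𝒢` and all `ℐ j` is `⊥` or `⊤`;
* `h1`, `hmul`: the span of `𝒢` contains `1` and the products of two elements of `𝒢`
  (a product of two double coset operators is a combination of double coset operators);
* `Z` invertible, commuting with `𝒢` and all `ℐ j`; `𝒰 ∈ adjoin (ℐ 0)`.

## Results

* `exists_gen_twisted_trace_ne_zero616`: there is ONE `g ∈ 𝒢` with `tr(g S) ≠ 0`.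
* `twisted_trace_gen616`: `tr(g h S) · dim V = tr(g S) · tr(h)` for `g ∈ 𝒢`, `h ∈ adjoin (ℐ 0)`.
* `specUp_core616`: there are `g ∈ 𝒢`, `b ≠ 0` with `tr(g S) ≠ 0`, `Z = b`, and for ALL `g' ∈ 𝒢`,
  `k ∈ ℤ`, `m ∈ ℕ`

      tr(g' (Zᵏ 𝒰ᵐ) S) · dim V = tr(g' S) · bᵏ · ∑_μ dim V_μ(𝒰) · μᵐ ;

  if `𝒰` is not nilpotent there is an eigenvalue `μ₀ ≠ 0` of `𝒰`: the atom `(b, μ₀)` of the class
  of `Φ` has the coefficient `tr(g S) dim V_{μ₀}(𝒰) / dim V ≠ 0`.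
-/

set_option autoImplicit false

open Module

namespace Fermat.Agent.LT.T7.H616

section Tools

variable {V : Type*} [AddCommGroup V] [Module ℂ V]

/-- Generators commute ⇒ the generated subalgebras commute. -/
theorem commute_adjoin_adjoin616 (s t : Set (Module.End ℂ V))
    (h : ∀ x ∈ s, ∀ y ∈ t, x * y = y * x) :
    ∀ x ∈ Algebra.adjoin ℂ s, ∀ y ∈ Algebra.adjoin ℂ t, x * y = y * x := by
  have h1 : Algebra.adjoin ℂ t ≤ Subalgebra.centralizer ℂ s := by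
    apply Algebra.adjoin_le
    intro y hy
    rw [SetLike.mem_coe, Subalgebra.mem_centralizer_iff]
    intro x hx
    exact h x hx y hy
  have h2 : Algebra.adjoin ℂ s
      ≤ Subalgebra.centralizer ℂ ((Algebra.adjoin ℂ t : Subalgebra ℂ (Module.End ℂ V)) :
        Set (Module.End ℂ V)) := by
    apply Algebra.adjoin_le
    intro x hx
    rw [SetLike.mem_coe, Subalgebra.mem_centralizer_iff]
    intro y hy
    have := h1 hy
    rw [Subalgebra.mem_centralizer_iff] at this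
    exact (this x hx).symm
  intro x hx y hy
  have := h2 hx
  rw [Subalgebra.mem_centralizer_iff] at this
  exact (this y hy).symm

/-- Conjugation by `S` maps a generated subalgebra into a subalgebra if it does so on the
generators. -/
theorem conj_adjoin_mem616 (S Sinv : Module.End ℂ V) (hS : S * Sinv = 1) (hS' : Sinv * S = 1)
    (s : Set (Module.End ℂ V)) (B : Subalgebra ℂ (Module.End ℂ V))
    (h : ∀ x ∈ s, Sinv * x * S ∈ B) :
    ∀ x ∈ Algebra.adjoin ℂ s, Sinv * x * S ∈ B := by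
  intro x hx
  induction hx using Algebra.adjoin_induction with
  | mem x hx => exact h x hx
  | algebraMap r =>
    have e : Sinv * algebraMap ℂ (Module.End ℂ V) r * S = algebraMap ℂ (Module.End ℂ V) r := by
      rw [← Algebra.commutes r Sinv, mul_assoc, hS', mul_one]
    rw [e]
    exact B.algebraMap_mem r
  | add x y _ _ hx hy =>
    have e : Sinv * (x + y) * S = Sinv * x * S + Sinv * y * S := by
      rw [mul_add, add_mul]
    rw [e]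
    exact B.add_mem hx hy
  | mul x y _ _ hx hy =>
    have e : Sinv * (x * y) * S = (Sinv * x * S) * (Sinv * y * S) := by
      have := conj_pow_mul616 S Sinv hS 1 x y
      simpa using this
    rw [e]
    exact B.mul_mem hx hy

/-- If the span of `𝒢` contains `1` and the products of two elements of `𝒢`, the subalgebra
generated by `𝒢` is contained in the span. -/
theorem adjoin_le_span616 (𝒢 : Set (Module.End ℂ V))
    (h1 : (1 : Module.End ℂ V) ∈ Submodule.span ℂ 𝒢)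
    (hmul : ∀ x ∈ 𝒢, ∀ y ∈ 𝒢, x * y ∈ Submodule.span ℂ 𝒢) :
    ∀ x ∈ Algebra.adjoin ℂ 𝒢, x ∈ Submodule.span ℂ 𝒢 := by
  have hmul' : ∀ x y : Module.End ℂ V, x ∈ Submodule.span ℂ 𝒢 → y ∈ Submodule.span ℂ 𝒢 →
      x * y ∈ Submodule.span ℂ 𝒢 := by
    intro x y hx hy
    have h2 : x * y ∈ Submodule.span ℂ 𝒢 * Submodule.span ℂ 𝒢 := Submodule.mul_mem_mul hx hy
    rw [Submodule.span_mul_span] at h2
    refine (Submodule.span_le.2 ?_) h2
    rintro z ⟨a, ha, b, hb, rfl⟩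
    exact hmul a ha b hb
  let B : Subalgebra ℂ (Module.End ℂ V) := (Submodule.span ℂ 𝒢).toSubalgebra h1 hmul'
  have hle : Algebra.adjoin ℂ 𝒢 ≤ B := by
    apply Algebra.adjoin_le
    intro x hx
    exact Submodule.subset_span hx
  intro x hx
  exact hle hx

end Tools

section Core

variable {V : Type*} [AddCommGroup V] [Module ℂ V] [FiniteDimensional ℂ V]

/-- **Burnside**: a set of operators without non-trivial invariant subspace generates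
`End V`. -/
theorem adjoin_eq_top_of_simple616 [Nontrivial V] (𝒮 : Set (Module.End ℂ V))
    (hirr : ∀ W : Submodule ℂ V, (∀ a ∈ 𝒮, W ≤ W.comap a) → W = ⊥ ∨ W = ⊤) :
    Algebra.adjoin ℂ 𝒮 = ⊤ :=
  Fermat.Agent.S29.H872.burnside (Algebra.adjoin ℂ 𝒮)
    (fun W hW => hirr W (fun a ha => hW a (Algebra.subset_adjoin ha)))

/-- The hypotheses of `twisted_trace_formula616` for the generated subalgebras. -/
theorem hyps_of_gens616 [Nontrivial V] (l : ℕ)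
    (𝒢 : Set (Module.End ℂ V)) (ℐ : ℕ → Set (Module.End ℂ V))
    (S Sinv : Module.End ℂ V) (hS : S * Sinv = 1) (hS' : Sinv * S = 1)
    (hGI : ∀ j < l, ∀ g ∈ 𝒢, ∀ h ∈ ℐ j, g * h = h * g)
    (hII : ∀ i < l, ∀ j < l, i ≠ j → ∀ h ∈ ℐ i, ∀ h' ∈ ℐ j, h * h' = h' * h)
    (hdown : ∀ j, j + 1 < l → ∀ h ∈ ℐ (j + 1), Sinv * h * S ∈ Algebra.adjoin ℂ (ℐ j))
    (hwrap : ∀ h ∈ ℐ 0, Sinv * h * S ∈ Algebra.adjoin ℂ (ℐ (l - 1)))
    (hcent : ∀ h ∈ ℐ 0, S ^ l * h = h * S ^ l)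
    (hirr : ∀ W : Submodule ℂ V, (∀ g ∈ 𝒢, W ≤ W.comap g) →
      (∀ j < l, ∀ h ∈ ℐ j, W ≤ W.comap h) → W = ⊥ ∨ W = ⊤) :
    (∀ j < l, ∀ a ∈ Algebra.adjoin ℂ 𝒢, ∀ h ∈ Algebra.adjoin ℂ (ℐ j), a * h = h * a) ∧
    (∀ i < l, ∀ j < l, i ≠ j → ∀ h ∈ Algebra.adjoin ℂ (ℐ i), ∀ h' ∈ Algebra.adjoin ℂ (ℐ j),
      h * h' = h' * h) ∧
    (∀ j, j + 1 < l → ∀ h ∈ Algebra.adjoin ℂ (ℐ (j + 1)),
      Sinv * h * S ∈ Algebra.adjoin ℂ (ℐ j)) ∧
    (∀ h ∈ Algebra.adjoin ℂ (ℐ 0), Sinv * h * S ∈ Algebra.adjoin ℂ (ℐ (l - 1))) ∧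
    (∀ h ∈ Algebra.adjoin ℂ (ℐ 0), S ^ l * h = h * S ^ l) ∧
    Algebra.adjoin ℂ (((Algebra.adjoin ℂ 𝒢 : Subalgebra ℂ (Module.End ℂ V)) :
        Set (Module.End ℂ V)) ∪
      ⋃ j ∈ Finset.range l, ((Algebra.adjoin ℂ (ℐ j) : Subalgebra ℂ (Module.End ℂ V)) :
        Set (Module.End ℂ V))) = ⊤ := by
  refine ⟨fun j hj => commute_adjoin_adjoin616 𝒢 (ℐ j) (hGI j hj),
    fun i hi j hj hij => commute_adjoin_adjoin616 (ℐ i) (ℐ j) (hII i hi j hj hij),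
    fun j hj => conj_adjoin_mem616 S Sinv hS hS' (ℐ (j + 1)) _ (hdown j hj),
    conj_adjoin_mem616 S Sinv hS hS' (ℐ 0) _ hwrap, ?_, ?_⟩
  · intro h hh
    have := commute_adjoin_adjoin616 {S ^ l} (ℐ 0) (by
      intro x hx y hy
      rw [Set.mem_singleton_iff] at hx
      rw [hx]
      exact hcent y hy) (S ^ l) (Algebra.subset_adjoin (Set.mem_singleton _)) h hh
    exact this
  · have htop : Algebra.adjoin ℂ (𝒢 ∪ ⋃ j ∈ Finset.range l, ℐ j) = ⊤ := by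
      apply adjoin_eq_top_of_simple616
      intro W hW
      refine hirr W (fun g hg => hW g (Or.inl hg)) (fun j hj h hh => hW h (Or.inr ?_))
      simp only [Set.mem_iUnion, Finset.mem_range]
      exact ⟨j, hj, hh⟩
    rw [eq_top_iff, ← htop]
    apply Algebra.adjoin_mono
    rintro x (hx | hx)
    · exact Or.inl (Algebra.subset_adjoin hx)
    · right
      simp only [Set.mem_iUnion, Finset.mem_range] at hx ⊢
      obtain ⟨j, hj, hxj⟩ := hx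
      exact ⟨j, hj, Algebra.subset_adjoin hxj⟩

/-- **THE TWISTED TRACE FORMULA FOR GENERATORS.**  `tr(g h S) · dim V = tr(g S) · tr(h)` for
`g ∈ 𝒢` and `h` in the algebra generated by `ℐ 0`. -/
theorem twisted_trace_gen616 [Nontrivial V] (l : ℕ) (hl : 0 < l)
    (𝒢 : Set (Module.End ℂ V)) (ℐ : ℕ → Set (Module.End ℂ V))
    (S Sinv : Module.End ℂ V) (hS : S * Sinv = 1) (hS' : Sinv * S = 1)
    (hGI : ∀ j < l, ∀ g ∈ 𝒢, ∀ h ∈ ℐ j, g * h = h * g)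
    (hII : ∀ i < l, ∀ j < l, i ≠ j → ∀ h ∈ ℐ i, ∀ h' ∈ ℐ j, h * h' = h' * h)
    (hdown : ∀ j, j + 1 < l → ∀ h ∈ ℐ (j + 1), Sinv * h * S ∈ Algebra.adjoin ℂ (ℐ j))
    (hwrap : ∀ h ∈ ℐ 0, Sinv * h * S ∈ Algebra.adjoin ℂ (ℐ (l - 1)))
    (hcent : ∀ h ∈ ℐ 0, S ^ l * h = h * S ^ l)
    (hirr : ∀ W : Submodule ℂ V, (∀ g ∈ 𝒢, W ≤ W.comap g) →
      (∀ j < l, ∀ h ∈ ℐ j, W ≤ W.comap h) → W = ⊥ ∨ W = ⊤)
    (g : Module.End ℂ V) (hg : g ∈ Algebra.adjoin ℂ 𝒢)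
    (h : Module.End ℂ V) (hh : h ∈ Algebra.adjoin ℂ (ℐ 0)) :
    LinearMap.trace ℂ V (g * h * S) * (Module.finrank ℂ V : ℂ)
      = LinearMap.trace ℂ V (g * S) * LinearMap.trace ℂ V h := by
  obtain ⟨a1, a2, a3, a4, a5, a6⟩ :=
    hyps_of_gens616 l 𝒢 ℐ S Sinv hS hS' hGI hII hdown hwrap hcent hirr
  exact (twisted_trace_formula616 l hl (Algebra.adjoin ℂ 𝒢) (fun j => Algebra.adjoin ℂ (ℐ j))
    S Sinv hS hS' a1 a2 a3 a4 a5 a6).2 g hg h hh

/-- **NON-VANISHING FOR ONE GENERATOR.**  If the span of `𝒢` contains `1` and the products of two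
elements of `𝒢`, there is `g ∈ 𝒢` with `tr(g S) ≠ 0`. -/
theorem exists_gen_twisted_trace_ne_zero616 [Nontrivial V] (l : ℕ) (hl : 0 < l)
    (𝒢 : Set (Module.End ℂ V)) (ℐ : ℕ → Set (Module.End ℂ V))
    (S Sinv : Module.End ℂ V) (hS : S * Sinv = 1) (hS' : Sinv * S = 1)
    (hGI : ∀ j < l, ∀ g ∈ 𝒢, ∀ h ∈ ℐ j, g * h = h * g)
    (hII : ∀ i < l, ∀ j < l, i ≠ j → ∀ h ∈ ℐ i, ∀ h' ∈ ℐ j, h * h' = h' * h)
    (hdown : ∀ j, j + 1 < l → ∀ h ∈ ℐ (j + 1), Sinv * h * S ∈ Algebra.adjoin ℂ (ℐ j))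
    (hwrap : ∀ h ∈ ℐ 0, Sinv * h * S ∈ Algebra.adjoin ℂ (ℐ (l - 1)))
    (hcent : ∀ h ∈ ℐ 0, S ^ l * h = h * S ^ l)
    (hirr : ∀ W : Submodule ℂ V, (∀ g ∈ 𝒢, W ≤ W.comap g) →
      (∀ j < l, ∀ h ∈ ℐ j, W ≤ W.comap h) → W = ⊥ ∨ W = ⊤)
    (h1 : (1 : Module.End ℂ V) ∈ Submodule.span ℂ 𝒢)
    (hmul : ∀ x ∈ 𝒢, ∀ y ∈ 𝒢, x * y ∈ Submodule.span ℂ 𝒢) :
    ∃ g ∈ 𝒢, LinearMap.trace ℂ V (g * S) ≠ 0 := by
  obtain ⟨a1, a2, a3, a4, a5, a6⟩ :=
    hyps_of_gens616 l 𝒢 ℐ S Sinv hS hS' hGI hII hdown hwrap hcent hirr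
  obtain ⟨a, ha, hne⟩ := (twisted_trace_formula616 l hl (Algebra.adjoin ℂ 𝒢)
    (fun j => Algebra.adjoin ℂ (ℐ j)) S Sinv hS hS' a1 a2 a3 a4 a5 a6).1
  by_contra hcon
  push Not at hcon
  have hspan : a ∈ Submodule.span ℂ 𝒢 := adjoin_le_span616 𝒢 h1 hmul a ha
  have hker : Submodule.span ℂ 𝒢 ≤ LinearMap.ker (twTr616 S) := by
    rw [Submodule.span_le]
    intro g hg
    rw [SetLike.mem_coe, LinearMap.mem_ker, twTr616_apply]
    exact hcon g hg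
  have := hker hspan
  rw [LinearMap.mem_ker, twTr616_apply] at this
  exact hne this

/-- **Schur**: an invertible operator commuting with a generating set is a non-zero scalar, and
so are its integral powers. -/
theorem central_unit_scalar616 [Nontrivial V] (𝒮 : Set (Module.End ℂ V))
    (htop : Algebra.adjoin ℂ 𝒮 = ⊤) (Zu : (Module.End ℂ V)ˣ)
    (hZ : ∀ x ∈ 𝒮, (Zu : Module.End ℂ V) * x = x * Zu) :
    ∃ b : ℂ, b ≠ 0 ∧ ∀ k : ℤ,
      ((Zu ^ k : (Module.End ℂ V)ˣ) : Module.End ℂ V) = algebraMap ℂ (Module.End ℂ V) (b ^ k) := by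
  have hall : ∀ x : Module.End ℂ V, (Zu : Module.End ℂ V) * x = x * Zu := by
    have hle : Algebra.adjoin ℂ 𝒮
        ≤ Subalgebra.centralizer ℂ ({(Zu : Module.End ℂ V)} : Set (Module.End ℂ V)) := by
      apply Algebra.adjoin_le
      intro x hx
      rw [SetLike.mem_coe, Subalgebra.mem_centralizer_iff]
      intro z hz
      rw [Set.mem_singleton_iff] at hz
      rw [hz]
      exact hZ x hx
    intro x
    have hx : x ∈ Algebra.adjoin ℂ 𝒮 := by rw [htop]; exact Algebra.mem_top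
    have := hle hx
    rw [Subalgebra.mem_centralizer_iff] at this
    exact this _ (Set.mem_singleton _)
  have hcen : (Zu : Module.End ℂ V) ∈ Subalgebra.center ℂ (Module.End ℂ V) := by
    rw [Subalgebra.mem_center_iff]
    intro x
    exact (hall x).symm
  rw [Algebra.IsCentral.center_eq_bot, Algebra.mem_bot] at hcen
  obtain ⟨b, hb⟩ := hcen
  have hb0 : b ≠ 0 := by
    intro h0
    rw [h0, map_zero] at hb
    obtain ⟨v, hv⟩ := exists_ne (0 : V)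
    have h1 : ((Zu⁻¹ : (Module.End ℂ V)ˣ) : Module.End ℂ V) * (Zu : Module.End ℂ V) = 1 :=
      Zu.inv_mul
    rw [← hb, mul_zero] at h1
    have := congrArg (fun f : Module.End ℂ V => f v) h1
    simp only [LinearMap.zero_apply, Module.End.one_apply] at this
    exact hv this.symm
  refine ⟨b, hb0, fun k => ?_⟩
  have hu : Zu = Units.map (algebraMap ℂ (Module.End ℂ V)).toMonoidHom (Units.mk0 b hb0) := by
    apply Units.ext
    rw [← hb]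
    rfl
  have e1 : (Units.map (algebraMap ℂ (Module.End ℂ V)).toMonoidHom (Units.mk0 b hb0)) ^ k
      = Units.map (algebraMap ℂ (Module.End ℂ V)).toMonoidHom ((Units.mk0 b hb0) ^ k) :=
    (map_zpow (Units.map (algebraMap ℂ (Module.End ℂ V)).toMonoidHom) (Units.mk0 b hb0) k).symm
  rw [hu, e1, Units.coe_map, Units.val_zpow_eq_zpow_val, Units.val_mk0]
  rfl

/-- A non-nilpotent operator has a non-zero eigenvalue. -/
theorem exists_ne_zero_eigenvalue616 (𝒰 : Module.End ℂ V) (h : ¬ IsNilpotent 𝒰) :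
    ∃ μ₀ : ℂ, μ₀ ≠ 0 ∧ 𝒰.maxGenEigenspace μ₀ ≠ ⊥ := by
  by_contra hcon
  push Not at hcon
  obtain ⟨m, hm, htr⟩ := exists_trace_pow_ne_zero_of_not_isNilpotent616 𝒰 h 1
  apply htr
  rw [trace_pow_eq_finsum616]
  apply finsum_eq_zero_of_forall_eq_zero
  intro μ
  by_cases hμ : μ = 0
  · rw [hμ, zero_pow (by omega), mul_zero]
  · rw [hcon μ hμ, finrank_bot]
    simp

/-- **SPEC-UP, THE CLASS OF `Φ`.**  See the header. -/
theorem specUp_core616 [Nontrivial V] (l : ℕ) (hl : 0 < l)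
    (𝒢 : Set (Module.End ℂ V)) (ℐ : ℕ → Set (Module.End ℂ V))
    (S Sinv : Module.End ℂ V) (hS : S * Sinv = 1) (hS' : Sinv * S = 1)
    (hGI : ∀ j < l, ∀ g ∈ 𝒢, ∀ h ∈ ℐ j, g * h = h * g)
    (hII : ∀ i < l, ∀ j < l, i ≠ j → ∀ h ∈ ℐ i, ∀ h' ∈ ℐ j, h * h' = h' * h)
    (hdown : ∀ j, j + 1 < l → ∀ h ∈ ℐ (j + 1), Sinv * h * S ∈ Algebra.adjoin ℂ (ℐ j))
    (hwrap : ∀ h ∈ ℐ 0, Sinv * h * S ∈ Algebra.adjoin ℂ (ℐ (l - 1)))
    (hcent : ∀ h ∈ ℐ 0, S ^ l * h = h * S ^ l)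
    (hirr : ∀ W : Submodule ℂ V, (∀ g ∈ 𝒢, W ≤ W.comap g) →
      (∀ j < l, ∀ h ∈ ℐ j, W ≤ W.comap h) → W = ⊥ ∨ W = ⊤)
    (h1 : (1 : Module.End ℂ V) ∈ Submodule.span ℂ 𝒢)
    (hmul : ∀ x ∈ 𝒢, ∀ y ∈ 𝒢, x * y ∈ Submodule.span ℂ 𝒢)
    (Zu : (Module.End ℂ V)ˣ)
    (hZG : ∀ g ∈ 𝒢, (Zu : Module.End ℂ V) * g = g * Zu)
    (hZI : ∀ j < l, ∀ h ∈ ℐ j, (Zu : Module.End ℂ V) * h = h * Zu)
    (𝒰 : Module.End ℂ V) (h𝒰 : 𝒰 ∈ Algebra.adjoin ℂ (ℐ 0)) :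
    ∃ g ∈ 𝒢, ∃ b : ℂ, LinearMap.trace ℂ V (g * S) ≠ 0 ∧ b ≠ 0 ∧
      (∀ k : ℤ, ((Zu ^ k : (Module.End ℂ V)ˣ) : Module.End ℂ V)
        = algebraMap ℂ (Module.End ℂ V) (b ^ k)) ∧
      ∀ g' ∈ 𝒢, ∀ (k : ℤ) (m : ℕ),
        LinearMap.trace ℂ V (g' * (((Zu ^ k : (Module.End ℂ V)ˣ) : Module.End ℂ V) * 𝒰 ^ m) * S)
            * (Module.finrank ℂ V : ℂ)
          = LinearMap.trace ℂ V (g' * S)
            * (b ^ k * ∑ᶠ μ : ℂ, (Module.finrank ℂ (𝒰.maxGenEigenspace μ) : ℂ) * μ ^ m) := by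
  obtain ⟨g, hg, hne⟩ := exists_gen_twisted_trace_ne_zero616 l hl 𝒢 ℐ S Sinv hS hS' hGI hII
    hdown hwrap hcent hirr h1 hmul
  have htop : Algebra.adjoin ℂ (𝒢 ∪ ⋃ j ∈ Finset.range l, ℐ j) = ⊤ := by
    apply adjoin_eq_top_of_simple616
    intro W hW
    refine hirr W (fun g hg => hW g (Or.inl hg)) (fun j hj h hh => hW h (Or.inr ?_))
    simp only [Set.mem_iUnion, Finset.mem_range]
    exact ⟨j, hj, hh⟩
  obtain ⟨b, hb0, hbk⟩ := central_unit_scalar616 _ htop Zu (by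
    rintro x (hx | hx)
    · exact hZG x hx
    · simp only [Set.mem_iUnion, Finset.mem_range] at hx
      obtain ⟨j, hj, hxj⟩ := hx
      exact hZI j hj x hxj)
  refine ⟨g, hg, b, hne, hb0, hbk, fun g' hg' k m => ?_⟩
  have hmem : ((Zu ^ k : (Module.End ℂ V)ˣ) : Module.End ℂ V) * 𝒰 ^ m
      ∈ Algebra.adjoin ℂ (ℐ 0) := by
    rw [hbk k]
    exact Subalgebra.mul_mem _ (Subalgebra.algebraMap_mem _ _) (Subalgebra.pow_mem _ h𝒰 m)
  rw [twisted_trace_gen616 l hl 𝒢 ℐ S Sinv hS hS' hGI hII hdown hwrap hcent hirr g'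
    (Algebra.subset_adjoin hg') _ hmem, hbk k, ← trace_pow_eq_finsum616]
  congr 1
  rw [← Algebra.smul_def, map_smul, smul_eq_mul]

end Core

end Fermat.Agent.LT.T7.H616
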