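import Fermat.Agent.LT.T7.H616.ClassModelLeavesA
import Fermat.Agent.LT.T7.H675.ClassModelU

/-!
# Row LT, tower T7, node `ClassModelC`: the leaves CM.06, CM.07, CM.08 IN CORE FORM (helper616)

OFF-MAIN.  PROVED (no hole, nothing assumed), on `H29.UpData` (the core form of helper675,
`T7/H675/ClassModelU.lean` 9a359011):

    locCommUC616_proved : CMU675.LocCommUC675 K'      (CM.06, core form)
    locMoveUC616_proved : CMU675.LocMoveUC675 K'      (CM.07, core form)
    powUC616_proved     : CMU675.PowUC675 K'          (CM.08, core form)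
-/

set_option autoImplicit false

open AutomorphicForm IsDedekindDomain NumberField MeasureTheory

noncomputable section

namespace Fermat.Agent.LT.T7.CM616

open Fermat.Agent.LT.H556 Fermat.Agent.LT.H556.A0 Fermat.Agent.LT.T7 Fermat.Agent.LT.T7.SU736
open Fermat.Agent.LT.H415 Fermat.Agent.LT.T5.H415 Fermat.Agent.LT.T7.CMU675

variable {K' : Type} [Field K'] [NumberField K']

theorem cyc_of_ctxU616 {ℓ : ℕ} {Φ : HeckeEigensystem K' ℂ} {U : H29.UpData K'}
    (ctx : CtxU675 K' ℓ Φ U) : T5.IsCyclicOfDegree U.s ℓ U.k := by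
  have h := ctx.data.cyc
  rw [ctx.data.deg] at h
  exact h

/-- **LEAF CM.06, core form.** -/
theorem locCommUC616_proved : LocCommUC675 K' := by
  intro ℓ Φ U ctx i hi j hj hij h h' hh hh'
  have hne : U.o j ≠ U.o i :=
    orbit_injective616 U.s ℓ U.o ctx.data.orbit_rel ctx.data.orbit_ne j hj i hi
      (fun e => hij e.symm)
  exact H83.mul_comm_of_local83 (U.o i) hh (hh'.2 (U.o i) (fun e => hne e.symm))

/-- **LEAF CM.07, core form.** -/
theorem locMoveUC616_proved : LocMoveUC675 K' := by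
  intro ℓ Φ U ctx
  have hc := cyc_of_ctxU616 ctx
  refine ⟨fun j _ h hh => isLocalAtFin_onGinv616 U.s (U.o j) (U.o (j + 1))
    (ctx.data.orbit_rel j) h hh, fun h hh => ?_⟩
  have hrel : T5.PlaceRel U.s (U.o (ℓ - 1)) (U.o 0) := by
    have := ctx.data.orbit_rel (ℓ - 1)
    rw [Nat.sub_add_cancel hc.pos, orbit_period415 U.s ℓ U.k hc U.o ctx.data.orbit_rel]
      at this
    exact this
  exact isLocalAtFin_onGinv616 U.s (U.o (ℓ - 1)) (U.o 0) hrel h hh

/-- **LEAF CM.08, core form.** -/
theorem powUC616_proved : PowUC675 K' := by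
  intro ℓ Φ U ctx x
  have hc := cyc_of_ctxU616 ctx
  have hleft : Function.LeftInverse (⇑U.s.onGinv) (⇑U.s.onG) := ctx.stable.left_inverse
  have h1 := onG_iterate415 U.s ℓ U.k hc x
  have h2 := (hleft.iterate ℓ) x
  rw [h1] at h2
  exact h2

end Fermat.Agent.LT.T7.CM616

end
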