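import Mathlib
import Fermat.Agent.LT.T7.H893.SupplyConstrSpec
import Fermat.Agent.LT.T6.H22.DblCoset
import Fermat.Agent.LT.T6.H176.InstLocal

/-!
# Row LT, tower T7, node `PairBC797` (BaseCb): ASSET -- THE LOCAL COMPONENTS OF THE SECOND PAIR
# ARE BI-INVARIANT WITH FINITE SUPPORT (helper616, deputy of row 2729)

OFF-MAIN.  Complete proofs, nothing assumed.  ADDITIVE (new names only, suffix `616`).

The components of the shape `H893.LocB893b` at the places of the level: the unit `unitFn893 n₀`,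
the Iwahori function `iwFn893`, the double coset function `dblFn893 n₀ y`.  Each of them
satisfies the hypotheses of `PB616.isTestFn_pure305_616` (= the clauses `inv_up`, `inv_down` of
`H893.LocHyp893`) at every deeper level:

    unit_inv616 : IsLocalField k q → n₀ ≤ n → IsBiInv (InU n) (unitFn893 n₀) ∧ HasFinSupp (InU n) (unitFn893 n₀)
    iw_inv616   : IsLocalField k q → 1 ≤ n  → IsBiInv (InU n) iwFn893 ∧ HasFinSupp (InU n) iwFn893
    dbl_inv616  : IsLocalField k q → n₀ ≤ n → IsBiInv (InU n) (dblFn893 n₀ y) ∧ HasFinSupp (InU n) (dblFn893 n₀ y)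
    unit_inv_at616, iw_inv_at616, dbl_inv_at616 : the same for the completions of a number field
-/

set_option autoImplicit false

open AutomorphicForm IsDedekindDomain NumberField MeasureTheory

noncomputable section

namespace Fermat.Agent.LT.T7.PB616

open Fermat.Agent.LT.H556 Fermat.Agent.LT.H556.A0 Fermat.Agent.LT.T7
open Fermat.Agent.LT.T7.H893 Fermat.Agent.LT.T6

section Local

variable {k : Type} [Field k] [Valued k T6.Γ₀]

/-! ## 1. The unit -/

theorem unitFn_eq_one616 {n : ℕ} {x : GL (Fin 2) k} (h : InU n x) : unitFn893 n x = 1 := by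
  classical
  unfold unitFn893
  exact if_pos h

theorem unitFn_eq_zero616 {n : ℕ} {x : GL (Fin 2) k} (h : ¬ InU n x) : unitFn893 n x = 0 := by
  classical
  unfold unitFn893
  exact if_neg h

theorem inU_of_unitFn_ne_zero616 {n : ℕ} {x : GL (Fin 2) k} (h : unitFn893 n x ≠ 0) :
    InU n x := by
  by_contra hn
  exact h (unitFn_eq_zero616 hn)

theorem isBiInv_unit616 {n₀ n : ℕ} (h : n₀ ≤ n) :
    IsBiInv (InU n) (unitFn893 (k := k) n₀) := by
  intro u u' g hu hu'
  have hu0 : InU n₀ u := H125.inU_mono125 h hu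
  have hu0' : InU n₀ u' := H125.inU_mono125 h hu'
  by_cases hg : InU n₀ g
  · rw [unitFn_eq_one616 hg,
      unitFn_eq_one616 (H846.inU_mul846 n₀ _ _ (H846.inU_mul846 n₀ _ _ hu0 hg) hu0')]
  · rw [unitFn_eq_zero616 hg]
    refine unitFn_eq_zero616 fun hc => hg ?_
    have e : g = u⁻¹ * (u * g * u') * u'⁻¹ := by group
    rw [e]
    exact H846.inU_mul846 n₀ _ _
      (H846.inU_mul846 n₀ _ _ (H846.inU_inv846 n₀ _ hu0) hc) (H846.inU_inv846 n₀ _ hu0')

theorem hasFinSupp_unit616 {q : ℕ} (hk : IsLocalField k q) {n₀ n : ℕ} (h : n₀ ≤ n) :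
    HasFinSupp (InU n) (unitFn893 (k := k) n₀) := by
  refine H125.finSuppLvlC125 k q hk n₀ n _ h ⟨{1}, fun g hg => ?_⟩
  exact ⟨1, Finset.mem_singleton_self _, g, inU_of_unitFn_ne_zero616 hg, (one_mul g).symm⟩

theorem unit_inv616 {q : ℕ} (hk : IsLocalField k q) {n₀ n : ℕ} (h : n₀ ≤ n) :
    IsBiInv (InU n) (unitFn893 (k := k) n₀) ∧ HasFinSupp (InU n) (unitFn893 (k := k) n₀) :=
  ⟨isBiInv_unit616 h, hasFinSupp_unit616 hk h⟩

/-! ## 2. The Iwahori function -/

theorem iwFn_eq_one616 {x : GL (Fin 2) k} (h : InIw893 x) : iwFn893 x = 1 := by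
  classical
  unfold iwFn893
  exact if_pos h

theorem iwFn_eq_zero616 {x : GL (Fin 2) k} (h : ¬ InIw893 x) : iwFn893 x = 0 := by
  classical
  unfold iwFn893
  exact if_neg h

theorem inIw_of_iwFn_ne_zero616 {x : GL (Fin 2) k} (h : iwFn893 x ≠ 0) : InIw893 x := by
  by_contra hn
  exact h (iwFn_eq_zero616 hn)

theorem exp_neg_lt_one616 {n : ℕ} (hn : 1 ≤ n) :
    (WithZero.exp (-(n : ℤ)) : T6.Γ₀) < 1 := by
  have : (WithZero.exp (-(n : ℤ)) : T6.Γ₀) < WithZero.exp (0 : ℤ) :=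
    WithZero.exp_lt_exp.2 (by omega)
  simpa using this

/-- `U(n) ⊆ I` for `n ≥ 1`. -/
theorem inIw_of_inU616 {n : ℕ} (hn : 1 ≤ n) {u : GL (Fin 2) k} (hu : InU n u) : InIw893 u := by
  refine ⟨fun i j => H125.inU_entry125 hu i j, fun i j => H125.inU_inv_entry125 hu i j, ?_⟩
  have h1 := (hu 1 0).1
  have e : (1 : Matrix (Fin 2) (Fin 2) k) 1 0 = 0 := by simp
  rw [e, sub_zero] at h1
  exact lt_of_le_of_lt h1 (exp_neg_lt_one616 hn)

/-- The Iwahori subgroup is closed under multiplication. -/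
theorem inIw_mul616 {x y : GL (Fin 2) k} (hx : InIw893 x) (hy : InIw893 y) :
    InIw893 (x * y) := by
  refine ⟨fun i j => ?_, fun i j => ?_, ?_⟩
  · rw [Units.val_mul]
    have := H125.v_mul_entry125 (a := 1) (b := 1) hx.1 hy.1 i j
    simpa using this
  · rw [mul_inv_rev, Units.val_mul]
    have := H125.v_mul_entry125 (a := 1) (b := 1) hy.2.1 hx.2.1 i j
    simpa using this
  · rw [Units.val_mul, Matrix.mul_apply, Fin.sum_univ_two]
    have h1 : Valued.v ((x : Matrix (Fin 2) (Fin 2) k) 1 0 * (y : Matrix (Fin 2) (Fin 2) k) 0 0)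
        < 1 := by
      rw [map_mul]
      exact lt_of_le_of_lt ((mul_le_mul' le_rfl (hy.1 0 0)).trans (mul_one _).le) hx.2.2
    have h2 : Valued.v ((x : Matrix (Fin 2) (Fin 2) k) 1 1 * (y : Matrix (Fin 2) (Fin 2) k) 1 0)
        < 1 := by
      rw [map_mul]
      exact lt_of_le_of_lt ((mul_le_mul' (hx.1 1 1) le_rfl).trans (one_mul _).le) hy.2.2
    exact lt_of_le_of_lt (Valuation.map_add _ _ _) (max_lt h1 h2)

theorem isBiInv_iw616 {n : ℕ} (hn : 1 ≤ n) : IsBiInv (InU n) (iwFn893 (k := k)) := by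
  intro u u' g hu hu'
  have hI : InIw893 u := inIw_of_inU616 hn hu
  have hI' : InIw893 u' := inIw_of_inU616 hn hu'
  by_cases hg : InIw893 g
  · rw [iwFn_eq_one616 hg, iwFn_eq_one616 (inIw_mul616 (inIw_mul616 hI hg) hI')]
  · rw [iwFn_eq_zero616 hg]
    refine iwFn_eq_zero616 fun hc => hg ?_
    have e : g = u⁻¹ * (u * g * u') * u'⁻¹ := by group
    rw [e]
    exact inIw_mul616 (inIw_mul616 (inIw_of_inU616 hn (H846.inU_inv846 n _ hu)) hc)
      (inIw_of_inU616 hn (H846.inU_inv846 n _ hu'))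

/-- The Iwahori subgroup lies in `U(0) = GL₂(𝒪)`. -/
theorem inU_zero_of_inIw616 {x : GL (Fin 2) k} (hx : InIw893 x) : InU 0 x := by
  intro i j
  have h1 : Valued.v ((1 : Matrix (Fin 2) (Fin 2) k) i j) ≤ 1 := by
    by_cases hij : i = j
    · subst hij; simp
    · simp [Matrix.one_apply_ne hij]
  have e0 : (WithZero.exp (-((0 : ℕ) : ℤ)) : T6.Γ₀) = 1 := by simp
  rw [e0]
  exact ⟨Valuation.map_sub_le (Valued.v : Valuation k _) (hx.1 i j) h1,
    Valuation.map_sub_le (Valued.v : Valuation k _) (hx.2.1 i j) h1⟩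

theorem hasFinSupp_iw616 {q : ℕ} (hk : IsLocalField k q) (n : ℕ) :
    HasFinSupp (InU n) (iwFn893 (k := k)) := by
  refine H125.finSuppLvlC125 k q hk 0 n _ (Nat.zero_le n) ⟨{1}, fun g hg => ?_⟩
  exact ⟨1, Finset.mem_singleton_self _, g,
    inU_zero_of_inIw616 (inIw_of_iwFn_ne_zero616 hg), (one_mul g).symm⟩

theorem iw_inv616 {q : ℕ} (hk : IsLocalField k q) {n : ℕ} (hn : 1 ≤ n) :
    IsBiInv (InU n) (iwFn893 (k := k)) ∧ HasFinSupp (InU n) (iwFn893 (k := k)) :=
  ⟨isBiInv_iw616 hn, hasFinSupp_iw616 hk n⟩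

/-! ## 3. The double coset function -/

theorem isDblInd_dblFn616 (n : ℕ) (y : GL (Fin 2) k) : H22.IsDblInd22 n y (dblFn893 n y) := by
  classical
  unfold dblFn893
  exact H22.isDblInd_ite22 n y _

theorem dbl_inv616 {q : ℕ} (hk : IsLocalField k q) {n₀ n : ℕ} (h : n₀ ≤ n)
    (y : GL (Fin 2) k) :
    IsBiInv (InU n) (dblFn893 n₀ y) ∧ HasFinSupp (InU n) (dblFn893 n₀ y) :=
  ⟨fun u u' g hu hu' => H22.isBiInv_dbl22 (isDblInd_dblFn616 n₀ y) u u' g
      (H125.inU_mono125 h hu) (H125.inU_mono125 h hu'),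
    H125.finSuppLvlC125 k q hk n₀ n _ h (H22.hasFinSupp_dbl22 hk (isDblInd_dblFn616 n₀ y))⟩

end Local

/-! ## 4. The completions of a number field -/

section Global

variable {K : Type} [Field K] [NumberField K]

theorem unit_inv_at616 (v : HeightOneSpectrum (𝓞 K)) {n₀ n : ℕ} (h : n₀ ≤ n) :
    IsBiInv (InU n) (unitFn893 (k := v.adicCompletion K) n₀) ∧
      HasFinSupp (InU n) (unitFn893 (k := v.adicCompletion K) n₀) :=
  unit_inv616 (H176.instLocalC176 K v) h

theorem iw_inv_at616 (v : HeightOneSpectrum (𝓞 K)) {n : ℕ} (hn : 1 ≤ n) :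
    IsBiInv (InU n) (iwFn893 (k := v.adicCompletion K)) ∧
      HasFinSupp (InU n) (iwFn893 (k := v.adicCompletion K)) :=
  iw_inv616 (H176.instLocalC176 K v) hn

theorem dbl_inv_at616 (v : HeightOneSpectrum (𝓞 K)) {n₀ n : ℕ} (h : n₀ ≤ n)
    (y : GL (Fin 2) (v.adicCompletion K)) :
    IsBiInv (InU n) (dblFn893 n₀ y) ∧ HasFinSupp (InU n) (dblFn893 n₀ y) :=
  dbl_inv616 (H176.instLocalC176 K v) h y

end Global

end Fermat.Agent.LT.T7.PB616

end
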