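import Fermat.Agent.LT.T7.H616.ClassModelSpec
import Fermat.Agent.LT.T5.H415.AutT5
import Fermat.Agent.LT.T7.H83.IwKit

/-!
# Row LT, tower T7, node `ClassModelC`: the leaves CM.06, CM.07, CM.08 (helper616)

OFF-MAIN.  PROVED (no hole, nothing assumed), from the assets AUT-UNIQUE (helper415,
`T5/H415/AutT5.lean`) and IW-KIT (helper83, `T7/H83/IwKit.lean`), vendored byte-identically:

    locCommC616_proved : LocCommC616 K K'      (CM.06)
    locMoveC616_proved : LocMoveC616 K K'      (CM.07)
    powC616_proved     : PowC616 K K'          (CM.08)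
-/

set_option autoImplicit false

open AutomorphicForm IsDedekindDomain NumberField MeasureTheory

noncomputable section

namespace Fermat.Agent.LT.T7.CM616

open Fermat.Agent.LT.H556 Fermat.Agent.LT.H556.A0 Fermat.Agent.LT.T7 Fermat.Agent.LT.T7.SU736
open Fermat.Agent.LT.H415 Fermat.Agent.LT.T5.H415

/-! ## 1. The inverse automorphism -/

section Inv

variable {K : Type} [Field K] [NumberField K]

/-- The inverse of an adelic automorphism. -/
def invAut616 (s : T5.AdelicAut K) : T5.AdelicAut K where
  σ := s.σ.symm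
  σA := s.σA.symm
  continuous_σA := s.continuous_symm
  continuous_symm := s.continuous_σA
  compat := fun x => by
    apply s.σA.injective
    rw [RingEquiv.apply_symm_apply, s.compat, RingEquiv.apply_symm_apply]

theorem invAut616_onG (s : T5.AdelicAut K) : (invAut616 s).onG = s.onGinv := rfl

/-- The equation lemmas of `invAut616` are realised here (kernel-checker collision rule). -/
theorem eqns_realised_invAut616 : True := by
  have _a1 := @invAut616.eq_1
  have _a2 := @invAut616.eq_def
  have _a3 := @invAut616.eq_unfold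
  trivial

theorem placeRel_inv616 (s : T5.AdelicAut K) (v v' : HeightOneSpectrum (𝓞 K))
    (h : T5.PlaceRel s v v') : T5.PlaceRel (invAut616 s) v' v :=
  finRel_symm415 s.σ v v' h

theorem trivAtInf_iff616 (w : InfinitePlace K) (g : G K) :
    TrivAtInf w g ↔ infComp w g = infComp w (1 : G K) := by
  rw [infComp_eq_iff415]
  constructor
  · intro h i j
    rw [h i j]
    exact ((show TrivAtInf w (1 : G K) from by
      intro i j
      rw [Units.val_one, Matrix.one_apply, Matrix.one_apply]
      split_ifs <;> rfl) i j).symm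
  · intro h i j
    rw [h i j]
    exact (show TrivAtInf w (1 : G K) from by
      intro i j
      rw [Units.val_one, Matrix.one_apply, Matrix.one_apply]
      split_ifs <;> rfl) i j

theorem trivAtFin_iff616 (v : HeightOneSpectrum (𝓞 K)) (g : G K) :
    TrivAtFin v g ↔ finComp v g = finComp v (1 : G K) := by
  have h1 : finComp v (1 : G K) = 1 := by
    unfold finComp
    ext i j
    rw [Units.val_one, Matrix.one_apply, Matrix.one_apply]
    split_ifs <;> rfl
  rw [h1]
  rfl

/-- **`σ⁻¹` moves the elements supported at `σ w` to elements supported at `w`.** -/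
theorem isLocalAtFin_onGinv616 (s : T5.AdelicAut K) (w w' : HeightOneSpectrum (𝓞 K))
    (hrel : T5.PlaceRel s w w') (h : G K) (hh : IsLocalAtFin w' h) :
    IsLocalAtFin w (s.onGinv h) := by
  refine ⟨fun winf => ?_, fun v' hv' => ?_⟩
  · obtain ⟨w₀, rfl⟩ := infImage_surjective415 (invAut616 s).σ winf
    rw [trivAtInf_iff616]
    have h1 := infComp_onG_congr415 (invAut616 s) w₀ h 1 ((trivAtInf_iff616 w₀ h).1 (hh.1 w₀))
    rw [invAut616_onG, map_one] at h1
    exact h1
  · obtain ⟨v, hv⟩ := finRel_exists_image415 s.σ v'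
    have hne : v ≠ w' := by
      rintro rfl
      exact hv' (finRel_inj415 s.σ v' w v hv hrel)
    rw [trivAtFin_iff616]
    have h1 := finComp_onG_congr415 (invAut616 s) v v' (placeRel_inv616 s v' v hv) h 1
      ((trivAtFin_iff616 v h).1 (hh.2 v hne))
    rw [invAut616_onG, map_one] at h1
    exact h1

/-- The places of the orbit are pairwise different. -/
theorem orbit_injective616 (s : T5.AdelicAut K) (l : ℕ) (o : ℕ → HeightOneSpectrum (𝓞 K))
    (ho : ∀ j : ℕ, T5.PlaceRel s (o j) (o (j + 1)))
    (hne : ∀ j : ℕ, 0 < j → j < l → o j ≠ o 0) :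
    ∀ i < l, ∀ j < l, i ≠ j → o i ≠ o j := by
  have key : ∀ i j : ℕ, i < j → j < l → o i ≠ o j := by
    intro i j hij hj heq
    have h1 := finRel_pow415 s.σ o ho i
    have h2 := finRel_pow415 s.σ (fun n => o (n + (j - i)))
      (fun n => by
        have := ho (n + (j - i))
        rw [show n + (j - i) + 1 = n + 1 + (j - i) by omega] at this
        exact this) i
    simp only [zero_add] at h2
    rw [show i + (j - i) = j by omega, ← heq] at h2
    have h3 := finRel_inj415 (s.σ ^ i) (o 0) (o (j - i)) (o i) h1 h2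
    exact hne (j - i) (by omega) (by omega) h3.symm
  intro i hi j hj hij
  rcases Nat.lt_or_gt_of_ne hij with h | h
  · exact key i j h hj
  · exact fun e => key j i h hi e.symm

end Inv

/-! ## 2. The leaves -/

section Leaves

variable {K K' : Type} [Field K] [NumberField K] [Field K'] [NumberField K'] [Algebra K K']

omit [Algebra K K'] in
theorem isBad_one616' (Dt : L2Data K K') : Dt.IsBad (1 : G K') :=
  ⟨fun w i j => by
      rw [Units.val_one, Matrix.one_apply, Matrix.one_apply]
      split_ifs <;> rfl,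
    fun v _ => by
      unfold TrivAtFin finComp
      ext i j
      rw [Units.val_one, Matrix.one_apply, Matrix.one_apply]
      split_ifs <;> rfl⟩

/-- The generator is cyclic of degree `ℓ`. -/
theorem cyc_of_ctx616 {ℓ : ℕ} {Φ : HeckeEigensystem K' ℂ} {Dt : L2Data K K'}
    (ctx : Ctx616 K K' ℓ Φ Dt) : T5.IsCyclicOfDegree Dt.s ℓ Dt.k := by
  have h := (ctx.data.comp 1 (isBad_one616' Dt)).cyc
  have hd := ctx.data.deg
  change T5.IsCyclicOfDegree Dt.s Dt.l Dt.k at h
  rw [hd] at h
  exact h

/-- **LEAF CM.06.** -/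
theorem locCommC616_proved : LocCommC616 K K' := by
  intro ℓ Φ Dt ctx i hi j hj hij h h' hh hh'
  have hne : Dt.o j ≠ Dt.o i :=
    orbit_injective616 Dt.s ℓ Dt.o ctx.data.orbit_rel ctx.data.orbit_ne j hj i hi
      (fun e => hij e.symm)
  exact H83.mul_comm_of_local83 (Dt.o i) hh (hh'.2 (Dt.o i) (fun e => hne e.symm))

/-- **LEAF CM.07.** -/
theorem locMoveC616_proved : LocMoveC616 K K' := by
  intro ℓ Φ Dt ctx
  have hc := cyc_of_ctx616 ctx
  refine ⟨fun j _ h hh => isLocalAtFin_onGinv616 Dt.s (Dt.o j) (Dt.o (j + 1))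
    (ctx.data.orbit_rel j) h hh, fun h hh => ?_⟩
  have hrel : T5.PlaceRel Dt.s (Dt.o (ℓ - 1)) (Dt.o 0) := by
    have := ctx.data.orbit_rel (ℓ - 1)
    rw [Nat.sub_add_cancel hc.pos, orbit_period415 Dt.s ℓ Dt.k hc Dt.o ctx.data.orbit_rel]
      at this
    exact this
  exact isLocalAtFin_onGinv616 Dt.s (Dt.o (ℓ - 1)) (Dt.o 0) hrel h hh

/-- **LEAF CM.08.** -/
theorem powC616_proved : PowC616 K K' := by
  intro ℓ Φ Dt ctx x
  have hc := cyc_of_ctx616 ctx
  have hleft : Function.LeftInverse (⇑Dt.s.onGinv) (⇑Dt.s.onG) := ctx.stable.left_inverse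
  have h1 := onG_iterate415 Dt.s ℓ Dt.k hc x
  have h2 := (hleft.iterate ℓ) x
  rw [h1] at h2
  exact h2

end Leaves

end Fermat.Agent.LT.T7.CM616

end
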